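import Mathlib
import Fermat.Agent.FF3.AmiceU.NodeInst

/-!
# FF4 / AmiceLead : exact leading constants in the Amice ring and on the node algebra

`K` a complete ultrametric normed field.  A nonzero element `z` of the bounded Amice ring `BAmice K`
whose norm is attained (every nonzero element when `K` is discretely normed) has a unique normal
form `z = c · X^a · (1 + b)(1 + d)` (`AmiceU.NF c a b d`: `c ≠ 0` a constant, `b` of norm `≤ 1` with
positive exponents, `d` of norm `< 1` with negative exponents).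

* `HasLead z c a` : `z` has the normal form with LEADING CONSTANT `c` and ORDER `a`;
* `HasLead.unique`, `exists_hasLead` (discrete case);
* exact multiplicativity `HasLead.mul`, `HasLead.pow`, `HasLead.prod`, `HasLead.const_mul`,
  `HasLead.exists_inv`, `HasLead.of_mul_eq` (division);
* `hasLead_algebraMap`, `hasLead_X_zpow`, `hasLead_one_add_plus`, `hasLead_one_add_minus`.

On the node algebra `NodeB π` (bounded functions on the open annulus `‖π‖ < ‖X‖ < 1`,
`Y = π / X`), with `ΛX g`, `ordX g` the lead of `toX g` (outer circle) and `ΛY g`, `ordY g` the lead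
of `toY g` (inner circle):

* `hasLead_toY_of_isUnit` : for a UNIT `u`, `ΛY u = ΛX u · π ^ ordX u` and `ordY u = - ordX u`;
* `lin hπ α = X - α`, `hasLead_toX_lin` (`ΛX = 1`, `ordX = 1`), `hasLead_toY_lin`
  (`ΛY = -α`, `ordY = 0`) for `‖π‖ < ‖α‖ < 1`;
* `hasLead_toX_unit_mul_prod`, `hasLead_toY_unit_mul_prod` and **`lead_ratio`**: for
  `g = u · ∏ (X - α i) ^ m i`, `ΛY g = ΛX g · π ^ a · ∏ (-α i) ^ m i` with `a = ordX u`;
* `lead_ratio_of_mul_eq` : the same for a meromorphic function on the annulus (zeros `α i`, poles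
  `β j`), given by its two boundary expansions.
-/

set_option autoImplicit false
set_option linter.unusedSectionVars false

namespace Fermat.Agent.FF4.AmiceLead

open Filter Topology
open Fermat.Agent.FF3.Amice Fermat.Agent.FF3.Birkhoff Fermat.Agent.FF3.AmiceU
open Fermat.Agent.FF3.NodeRing
open scoped Classical

variable {K : Type*} [NormedField K] [IsUltrametricDist K] [CompleteSpace K]

/-! ### the leading constant and the order -/

/-- `z = c · X^a · (1 + b)(1 + d)` with `c ≠ 0`, `b` a plus unit part, `d` a small minus unit part: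
`c` is the leading constant and `a` the order of `z`. -/
def HasLead (z : BAmice K) (c : K) (a : ℤ) : Prop :=
  c ≠ 0 ∧ ∃ b d : BAmice K, IsPlus b ∧ IsMinus d ∧ z = NF c a b d

theorem HasLead.const_ne_zero {z : BAmice K} {c : K} {a : ℤ} (h : HasLead z c a) : c ≠ 0 := h.1

theorem HasLead.unique {z : BAmice K} {c c' : K} {a a' : ℤ} (h : HasLead z c a)
    (h' : HasLead z c' a') : c = c' ∧ a = a' := by
  obtain ⟨hc, b, d, hb, hd, hz⟩ := h
  obtain ⟨hc', b', d', hb', hd', hz'⟩ := h'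
  obtain ⟨h1, h2, -, -⟩ := nf_unique hc hc' hb hd hb' hd' (hz.symm.trans hz')
  exact ⟨h2, h1⟩

/-- over a discretely normed field every nonzero element has a leading constant -/
theorem exists_hasLead {ϖ : K} (hϖ : IsDiscreteNorm ϖ) {z : BAmice K} (hz : z ≠ 0) :
    ∃ (c : K) (a : ℤ), HasLead z c a := by
  obtain ⟨c, a, b, d, hc, -, -, hb, hd, h⟩ := exists_nf_of_discrete hϖ hz
  exact ⟨c, a, hc, b, d, hb, hd, h⟩

theorem isPlus_mul {b b' : BAmice K} (hb : IsPlus b) (hb' : IsPlus b') :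
    IsPlus ((1 + b) * (1 + b') - 1) := by
  refine ⟨split_isMul.one_add_mul_sub_one_mem_BP hb.1 hb'.1, ?_⟩
  have h : (1 + b) * (1 + b') - 1 = b + b' + b * b' := by ring
  rw [h]
  refine norm_add_le_of_le (norm_add_le_of_le hb.2 hb'.2) ?_
  calc ‖b * b'‖ ≤ ‖b‖ * ‖b'‖ := norm_mul_le _ _
    _ ≤ 1 * 1 := mul_le_mul hb.2 hb'.2 (norm_nonneg _) zero_le_one
    _ = 1 := one_mul 1

theorem isMinus_mul {d d' : BAmice K} (hd : IsMinus d) (hd' : IsMinus d') :
    IsMinus ((1 + d) * (1 + d') - 1) := by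
  refine ⟨split_isMul.one_add_mul_sub_one_mem_BM hd.1 hd'.1, ?_⟩
  have h : (1 + d) * (1 + d') - 1 = d + d' + d * d' := by ring
  rw [h]
  have hdd : ‖d * d'‖ ≤ max ‖d‖ ‖d'‖ := by
    calc ‖d * d'‖ ≤ ‖d‖ * ‖d'‖ := norm_mul_le _ _
      _ ≤ ‖d‖ * 1 := mul_le_mul_of_nonneg_left hd'.2.le (norm_nonneg _)
      _ = ‖d‖ := mul_one _
      _ ≤ max ‖d‖ ‖d'‖ := le_max_left _ _
  have h1 : ‖d + d' + d * d'‖ ≤ max ‖d‖ ‖d'‖ :=
    norm_add_le_of_le (IsUltrametricDist.norm_add_le_max _ _) hdd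
  exact h1.trans_lt (max_lt hd.2 hd'.2)

theorem nf_mul_nf (c c' : K) (a a' : ℤ) (b d b' d' : BAmice K) :
    NF c a b d * NF c' a' b' d'
      = NF (c * c') (a + a') ((1 + b) * (1 + b') - 1) ((1 + d) * (1 + d') - 1) := by
  have hX : ((BAmice.X ^ (a + a') : (BAmice K)ˣ) : BAmice K)
      = ((BAmice.X ^ a : (BAmice K)ˣ) : BAmice K) * ((BAmice.X ^ a' : (BAmice K)ˣ) : BAmice K) := by
    rw [zpow_add, Units.val_mul]
  unfold NF
  rw [hX, map_mul]
  ring

/-- **exact multiplicativity of the leading constant** -/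
theorem HasLead.mul {z z' : BAmice K} {c c' : K} {a a' : ℤ} (h : HasLead z c a)
    (h' : HasLead z' c' a') : HasLead (z * z') (c * c') (a + a') := by
  obtain ⟨hc, b, d, hb, hd, rfl⟩ := h
  obtain ⟨hc', b', d', hb', hd', rfl⟩ := h'
  exact ⟨mul_ne_zero hc hc', _, _, isPlus_mul hb hb', isMinus_mul hd hd', nf_mul_nf _ _ _ _ _ _ _ _⟩

theorem hasLead_algebraMap {c : K} (hc : c ≠ 0) : HasLead (algebraMap K (BAmice K) c) c 0 :=
  ⟨hc, 0, 0, isPlus_zero, isMinus_zero, (nf_zero_zero c).symm⟩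

theorem hasLead_one : HasLead (1 : BAmice K) 1 0 := by
  have := hasLead_algebraMap (K := K) one_ne_zero
  rwa [map_one] at this

theorem hasLead_X_zpow (k : ℤ) : HasLead (((BAmice.X ^ k : (BAmice K)ˣ) : BAmice K)) 1 k := by
  refine ⟨one_ne_zero, 0, 0, isPlus_zero, isMinus_zero, ?_⟩
  unfold NF
  rw [map_one, one_mul, add_zero, mul_one, mul_one]

theorem hasLead_one_add_plus {b : BAmice K} (hb : IsPlus b) : HasLead (1 + b) 1 0 := by
  refine ⟨one_ne_zero, b, 0, hb, isMinus_zero, ?_⟩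
  unfold NF
  rw [map_one, one_mul, zpow_zero, Units.val_one, one_mul, add_zero, mul_one]

theorem hasLead_one_add_minus {d : BAmice K} (hd : IsMinus d) : HasLead (1 + d) 1 0 := by
  refine ⟨one_ne_zero, 0, d, isPlus_zero, hd, ?_⟩
  unfold NF
  rw [map_one, one_mul, zpow_zero, Units.val_one, one_mul, add_zero, one_mul]

theorem HasLead.const_mul {z : BAmice K} {c : K} {a : ℤ} (h : HasLead z c a) {e : K}
    (he : e ≠ 0) : HasLead (algebraMap K (BAmice K) e * z) (e * c) a := by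
  have := (hasLead_algebraMap he).mul h
  rwa [zero_add] at this

theorem HasLead.pow {z : BAmice K} {c : K} {a : ℤ} (h : HasLead z c a) (n : ℕ) :
    HasLead (z ^ n) (c ^ n) ((n : ℤ) * a) := by
  induction n with
  | zero =>
    rw [pow_zero, pow_zero, Nat.cast_zero, zero_mul]
    exact hasLead_one
  | succ n ih =>
    have := ih.mul h
    rw [pow_succ, pow_succ]
    have e : ((n + 1 : ℕ) : ℤ) * a = (n : ℤ) * a + a := by push_cast; ring
    rw [e]
    exact this

/-- a product of elements with leading constants -/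
theorem HasLead.prod {ι : Type*} (s : Finset ι) (z : ι → BAmice K) (c : ι → K) (a : ι → ℤ)
    (h : ∀ i ∈ s, HasLead (z i) (c i) (a i)) :
    HasLead (∏ i ∈ s, z i) (∏ i ∈ s, c i) (∑ i ∈ s, a i) := by
  induction s using Finset.induction_on with
  | empty =>
    rw [Finset.prod_empty, Finset.prod_empty, Finset.sum_empty]
    exact hasLead_one
  | insert i s hi ih =>
    rw [Finset.prod_insert hi, Finset.prod_insert hi, Finset.sum_insert hi]
    exact (h i (Finset.mem_insert_self i s)).mul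
      (ih fun j hj => h j (Finset.mem_insert_of_mem hj))

/-- an element with a leading constant is invertible, and the inverse has the inverse leading
constant and the opposite order -/
theorem HasLead.exists_inv {z : BAmice K} {c : K} {a : ℤ} (h : HasLead z c a) :
    ∃ z' : BAmice K, z * z' = 1 ∧ HasLead z' c⁻¹ (-a) := by
  obtain ⟨hc, b, d, hb, hd, rfl⟩ := h
  obtain ⟨b', d', hb', hd', hinv⟩ := exists_nf_inv hc a hb hd
  exact ⟨NF c⁻¹ (-a) b' d', hinv, inv_ne_zero hc, b', d', hb', hd', rfl⟩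

theorem HasLead.ne_zero {z : BAmice K} {c : K} {a : ℤ} (h : HasLead z c a) : z ≠ 0 := by
  have hnt : Nontrivial (BAmice K) := NormOneClass.nontrivial
  obtain ⟨z', hz', -⟩ := h.exists_inv
  intro h0
  rw [h0, zero_mul] at hz'
  exact zero_ne_one hz'

/-- **division**: if `f * z' = z` with `z`, `z'` having leading constants, so has `f` -/
theorem HasLead.of_mul_eq {f z z' : BAmice K} {c c' : K} {a a' : ℤ} (h : HasLead z c a)
    (h' : HasLead z' c' a') (hf : f * z' = z) : HasLead f (c / c') (a - a') := by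
  obtain ⟨w, hw, hwl⟩ := h'.exists_inv
  have hfe : f = z * w := by
    calc f = f * (z' * w) := by rw [hw, mul_one]
      _ = (f * z') * w := by ring
      _ = z * w := by rw [hf]
  rw [hfe, div_eq_mul_inv, sub_eq_add_neg]
  exact h.mul hwl

/-! ### the node algebra -/

variable {π : K}

/-- **the two leading constants of a unit of the node algebra**: if the expansion in `X` of a unit
`u` has leading constant `c` and order `a`, its expansion in `Y = π / X` has leading constant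
`c · π ^ a` and order `-a`. -/
theorem hasLead_toY_of_isUnit {ϖ : K} (hϖ : IsDiscreteNorm ϖ) (hπ : π ≠ 0) (hπ1 : ‖π‖ < 1)
    {u : NodeB π} (hu : IsUnit u) {c : K} {a : ℤ} (h : HasLead (toX u) c a) :
    HasLead (toY u) (c * π ^ a) (-a) := by
  obtain ⟨g, hug⟩ := hu.exists_right_inv
  set ax := nodeAx hπ hπ1 with hax
  obtain ⟨c₀, a₀, b, d, b', rb, rd, hc₀, hb, hd, hb', hfe, hrb, -, hrd2, hfR⟩ :=
    ax.unit_structure hϖ hug
  have h0 : HasLead (toX u) c₀ a₀ := ⟨hc₀, b, d, hb, hd, hfe⟩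
  obtain ⟨rfl, rfl⟩ := h.unique h0
  obtain ⟨rb0, hrb0, d'', hd'', hrb0'⟩ := ax.plus b hb
  have hrbeq : rb = rb0 := ax.a1_inj (by rw [hrb, hrb0])
  have hτf : ax.a2 u = NF (c * π ^ a) (-a) b' d'' := by
    rw [hfR, map_mul, map_mul, map_mul, ax.a2_cR, ax.a2_Xp, hrbeq, hrb0', hrd2]
    unfold NF
    rw [map_mul]
    ring
  exact ⟨mul_ne_zero hc₀ (zpow_ne_zero a hπ), b', d'', hb', hd'', hτf⟩

/-- the linear function `X - α` on the annulus -/
noncomputable def lin (hπ : π ≠ 0) (α : K) : NodeB π :=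
  monomial hπ 1 1 - algebraMap K (NodeB π) α

theorem toX_lin (hπ : π ≠ 0) (α : K) :
    toX (lin hπ α) = BAmice.single 1 1 - algebraMap K (BAmice K) α := by
  unfold lin
  rw [map_sub, toX_monomial, AlgHom.commutes]

theorem toY_lin (hπ : π ≠ 0) (α : K) :
    toY (lin hπ α) = BAmice.single (-1) π - algebraMap K (BAmice K) α := by
  unfold lin
  rw [map_sub, toY_monomial, AlgHom.commutes, one_mul, zpow_one]

theorem isMinus_single_neg_one {e : K} (he : ‖e‖ < 1) : IsMinus (BAmice.single (-1) e) := by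
  refine ⟨mem_BM_iff.2 ?_, ?_⟩
  · intro n hn
    rw [BAmice.coeff_single, if_neg (by omega)]
  · refine lt_of_le_of_lt ?_ he
    rw [BAmice.norm_le_iff]
    intro n
    rw [BAmice.coeff_single]
    split_ifs
    · exact le_rfl
    · rw [norm_zero]; exact norm_nonneg _

theorem algebraMap_mul_single (e : K) (k : ℤ) (x : K) :
    algebraMap K (BAmice K) e * BAmice.single k x = BAmice.single k (e * x) := by
  apply BAmice.ext; intro n
  rw [coeff_algebraMap_mul, BAmice.coeff_single, BAmice.coeff_single]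
  split_ifs
  · rfl
  · rw [mul_zero]

/-- the outer circle: `X - α = X · (1 - α X⁻¹)` has leading constant `1` and order `1` -/
theorem hasLead_toX_lin (hπ : π ≠ 0) {α : K} (hα1 : ‖α‖ < 1) :
    HasLead (toX (lin hπ α)) 1 1 := by
  have hd : IsMinus (BAmice.single (-1) (-α)) := isMinus_single_neg_one (by rwa [norm_neg])
  refine ⟨one_ne_zero, 0, BAmice.single (-1) (-α), isPlus_zero, hd, ?_⟩
  unfold NF
  rw [toX_lin, map_one, one_mul, add_zero, mul_one, BAmice.coe_X_zpow, mul_add, mul_one,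
    BAmice.single_mul_single, one_mul]
  have h0 : BAmice.single (1 + -1) (-α) = -algebraMap K (BAmice K) α := by
    apply BAmice.ext; intro n
    rw [map_neg, BAmice.coeff_single, BAmice.coeff_algebraMap]
    norm_num
    split_ifs <;> simp
  rw [h0, sub_eq_add_neg]

/-- the inner circle: `X - α = -α · (1 - (π / α) Y⁻¹)` has leading constant `-α` and order `0` -/
theorem hasLead_toY_lin (hπ : π ≠ 0) {α : K} (hα : ‖π‖ < ‖α‖) :
    HasLead (toY (lin hπ α)) (-α) 0 := by
  have hα0 : α ≠ 0 := by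
    intro h0; rw [h0, norm_zero] at hα; exact absurd hα (not_lt.2 (norm_nonneg _))
  have hlt : ‖-(π / α)‖ < 1 := by
    rw [norm_neg, norm_div, div_lt_one (norm_pos_iff.2 hα0)]
    exact hα
  have hd : IsMinus (BAmice.single (-1) (-(π / α))) := isMinus_single_neg_one hlt
  refine ⟨neg_ne_zero.2 hα0, 0, BAmice.single (-1) (-(π / α)), isPlus_zero, hd, ?_⟩
  unfold NF
  rw [toY_lin, zpow_zero, Units.val_one, mul_one, add_zero, mul_one, mul_add, mul_one,
    algebraMap_mul_single]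
  have h1 : -α * -(π / α) = π := by field_simp
  rw [h1, map_neg]
  ring

/-- the expansion on the outer circle of `u · ∏ (X - α i) ^ m i` -/
theorem hasLead_toX_unit_mul_prod (hπ : π ≠ 0) {ι : Type*} (s : Finset ι) (α : ι → K)
    (m : ι → ℕ) (hα1 : ∀ i ∈ s, ‖α i‖ < 1) {u : NodeB π} {c : K} {a : ℤ}
    (h : HasLead (toX u) c a) :
    HasLead (toX (u * ∏ i ∈ s, lin hπ (α i) ^ m i)) c (a + ∑ i ∈ s, (m i : ℤ)) := by
  rw [map_mul, map_prod]
  have hp := HasLead.prod s (fun i => toX (lin hπ (α i) ^ m i)) (fun _ => (1 : K))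
    (fun i => (m i : ℤ)) (fun i hi => by
      have := (hasLead_toX_lin hπ (hα1 i hi)).pow (m i)
      rw [map_pow]
      rwa [one_pow, mul_one] at this)
  have := h.mul hp
  rwa [Finset.prod_const_one, mul_one] at this

/-- the expansion on the inner circle of `u · ∏ (X - α i) ^ m i`, `u` a unit -/
theorem hasLead_toY_unit_mul_prod {ϖ : K} (hϖ : IsDiscreteNorm ϖ) (hπ : π ≠ 0) (hπ1 : ‖π‖ < 1)
    {ι : Type*} (s : Finset ι) (α : ι → K) (m : ι → ℕ) (hα : ∀ i ∈ s, ‖π‖ < ‖α i‖)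
    {u : NodeB π} (hu : IsUnit u) {c : K} {a : ℤ} (h : HasLead (toX u) c a) :
    HasLead (toY (u * ∏ i ∈ s, lin hπ (α i) ^ m i))
      (c * π ^ a * ∏ i ∈ s, (-α i) ^ m i) (-a) := by
  rw [map_mul, map_prod]
  have hp := HasLead.prod s (fun i => toY (lin hπ (α i) ^ m i)) (fun i => (-α i) ^ m i)
    (fun _ => (0 : ℤ)) (fun i hi => by
      have := (hasLead_toY_lin hπ (hα i hi)).pow (m i)
      rw [map_pow]
      rwa [mul_zero] at this)
  have := (hasLead_toY_of_isUnit hϖ hπ hπ1 hu h).mul hp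
  rwa [Finset.sum_const_zero, add_zero] at this

/-- **THE EXACT IDENTITY OF THE LEADING CONSTANTS.**  For `g = u · ∏ (X - α i) ^ m i` on the annulus
`‖π‖ < ‖X‖ < 1` (`u` a unit, `‖π‖ < ‖α i‖ < 1`): if `ΛX`, `ΛY` are the leading constants of `g` on
the outer and on the inner circle and `a` is the order of `u` on the outer circle, then
`ΛY = ΛX · π ^ a · ∏ (-α i) ^ m i`; moreover `ordX g = a + ∑ m i`, `ordY g = -a`. -/
theorem lead_ratio {ϖ : K} (hϖ : IsDiscreteNorm ϖ) (hπ : π ≠ 0) (hπ1 : ‖π‖ < 1)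
    {ι : Type*} (s : Finset ι) (α : ι → K) (m : ι → ℕ) (hα : ∀ i ∈ s, ‖π‖ < ‖α i‖)
    (hα1 : ∀ i ∈ s, ‖α i‖ < 1) {u : NodeB π} (hu : IsUnit u) {cu : K} {a : ℤ}
    (hlu : HasLead (toX u) cu a) {g : NodeB π} (hg : g = u * ∏ i ∈ s, lin hπ (α i) ^ m i)
    {cX cY : K} {aX aY : ℤ} (hX : HasLead (toX g) cX aX) (hY : HasLead (toY g) cY aY) :
    cY = cX * π ^ a * ∏ i ∈ s, (-α i) ^ m i ∧ aX = a + ∑ i ∈ s, (m i : ℤ) ∧ aY = -a := by
  subst hg
  obtain ⟨h1, h2⟩ := hX.unique (hasLead_toX_unit_mul_prod hπ s α m hα1 hlu)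
  obtain ⟨h3, h4⟩ := hY.unique (hasLead_toY_unit_mul_prod hϖ hπ hπ1 s α m hα hu hlu)
  exact ⟨by rw [h3, h1], h2, h4⟩

/-- **the exact identity for a meromorphic function on the annulus**, given by its two boundary
expansions `fX`, `fY`: zeros `α i` (multiplicities `m i`), poles `β j` (multiplicities `n j`), i.e.
`f · ∏ (X - β j) ^ n j = u · ∏ (X - α i) ^ m i` on both circles. -/
theorem lead_ratio_of_mul_eq {ϖ : K} (hϖ : IsDiscreteNorm ϖ) (hπ : π ≠ 0) (hπ1 : ‖π‖ < 1)
    {ι κ : Type*} (s : Finset ι) (α : ι → K) (m : ι → ℕ) (hα : ∀ i ∈ s, ‖π‖ < ‖α i‖)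
    (hα1 : ∀ i ∈ s, ‖α i‖ < 1) (t : Finset κ) (β : κ → K) (n : κ → ℕ)
    (hβ : ∀ j ∈ t, ‖π‖ < ‖β j‖) (hβ1 : ∀ j ∈ t, ‖β j‖ < 1)
    {u : NodeB π} (hu : IsUnit u) {cu : K} {a : ℤ} (hlu : HasLead (toX u) cu a)
    {fX fY : BAmice K}
    (hfX : fX * toX (∏ j ∈ t, lin hπ (β j) ^ n j) = toX (u * ∏ i ∈ s, lin hπ (α i) ^ m i))
    (hfY : fY * toY (∏ j ∈ t, lin hπ (β j) ^ n j) = toY (u * ∏ i ∈ s, lin hπ (α i) ^ m i))
    {cX cY : K} {aX aY : ℤ} (hX : HasLead fX cX aX) (hY : HasLead fY cY aY) :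
    cY * ∏ j ∈ t, (-β j) ^ n j = cX * π ^ a * ∏ i ∈ s, (-α i) ^ m i
      ∧ aX = a + ∑ i ∈ s, (m i : ℤ) - ∑ j ∈ t, (n j : ℤ) ∧ aY = -a := by
  -- the denominators
  have hdX : HasLead (toX (∏ j ∈ t, lin hπ (β j) ^ n j)) 1 (∑ j ∈ t, (n j : ℤ)) := by
    have := hasLead_toX_unit_mul_prod (π := π) hπ t β n hβ1 (u := 1) (c := 1) (a := 0)
      (by rw [map_one]; exact hasLead_one)
    rwa [one_mul, zero_add] at this
  have hdY : HasLead (toY (∏ j ∈ t, lin hπ (β j) ^ n j)) (∏ j ∈ t, (-β j) ^ n j) 0 := by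
    have := hasLead_toY_unit_mul_prod hϖ hπ hπ1 t β n hβ (u := 1) isUnit_one (c := 1) (a := 0)
      (by rw [map_one]; exact hasLead_one)
    rwa [one_mul, zpow_zero, one_mul, one_mul, neg_zero] at this
  have hnX := hasLead_toX_unit_mul_prod hπ s α m hα1 hlu
  have hnY := hasLead_toY_unit_mul_prod hϖ hπ hπ1 s α m hα hu hlu
  obtain ⟨h1, h2⟩ := (hX.mul hdX).unique (hfX ▸ hnX)
  obtain ⟨h3, h4⟩ := (hY.mul hdY).unique (hfY ▸ hnY)
  rw [mul_one] at h1
  rw [add_zero] at h4
  refine ⟨by rw [h3, h1], by omega, h4⟩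

end Fermat.Agent.FF4.AmiceLead
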