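import Mathlib
import Fermat.Agent.FF4.AmiceLead.Basic

/-!
# FF4 / AmiceLead : the norm of the leading constant is the Gauss norm

* `HasLead.norm_eq` : `HasLead z c a → ‖z‖ = ‖c‖`;
* `HasLead.norm_mul` : multiplicativity of the norm on elements with leading constants.
-/

set_option autoImplicit false
set_option linter.unusedSectionVars false

namespace Fermat.Agent.FF4.AmiceLead

open Filter Topology
open Fermat.Agent.FF3.Amice Fermat.Agent.FF3.Birkhoff Fermat.Agent.FF3.AmiceU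
open scoped Classical

variable {K : Type*} [NormedField K] [IsUltrametricDist K] [CompleteSpace K]

theorem HasLead.norm_le {z : BAmice K} {c : K} {a : ℤ} (h : HasLead z c a) : ‖z‖ ≤ ‖c‖ := by
  obtain ⟨-, b, d, hb, hd, rfl⟩ := h
  exact norm_nf hb hd

/-- **the norm of the leading constant is the Gauss norm** -/
theorem HasLead.norm_eq {z : BAmice K} {c : K} {a : ℤ} (h : HasLead z c a) : ‖z‖ = ‖c‖ := by
  refine le_antisymm h.norm_le ?_
  obtain ⟨z', hzz', hz'⟩ := h.exists_inv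
  have hc : c ≠ 0 := h.const_ne_zero
  have hcpos : 0 < ‖c‖ := norm_pos_iff.2 hc
  have h1 : (1 : ℝ) ≤ ‖z‖ * ‖c‖⁻¹ := by
    calc (1 : ℝ) = ‖(1 : BAmice K)‖ := norm_one.symm
      _ = ‖z * z'‖ := by rw [hzz']
      _ ≤ ‖z‖ * ‖z'‖ := norm_mul_le _ _
      _ ≤ ‖z‖ * ‖c⁻¹‖ := mul_le_mul_of_nonneg_left hz'.norm_le (norm_nonneg _)
      _ = ‖z‖ * ‖c‖⁻¹ := by rw [norm_inv]
  have h2 := mul_le_mul_of_nonneg_right h1 hcpos.le
  rwa [one_mul, mul_assoc, inv_mul_cancel₀ hcpos.ne', mul_one] at h2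

/-- multiplicativity of the norm on elements with leading constants -/
theorem HasLead.norm_mul {z z' : BAmice K} {c c' : K} {a a' : ℤ} (h : HasLead z c a)
    (h' : HasLead z' c' a') : ‖z * z'‖ = ‖z‖ * ‖z'‖ := by
  rw [(h.mul h').norm_eq, h.norm_eq, h'.norm_eq, _root_.norm_mul]

end Fermat.Agent.FF4.AmiceLead
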