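import Mathlib
import Fermat.Agent.FF4.AmiceLead.Norm

/-!
# FF4 / AmiceLead : the assembly identity of the leading constants (T5 of the K1 blueprint)

* `lead_ratio_pth` : the exact node identity when all zeros and poles in the tube have multiplicity
  divisible by `p`: `ΛY · B ^ p = ΛX · π ^ a · A ^ p`, `A = ∏ (-α i) ^ m' i`, `B = ∏ (-β j) ^ n' j`;
* `HasLead.of_decomp` : the leading constant of `c · h · w ^ p`;
* `eta_pow_identity` : **(T5)** for two nodes `e`, `e'` joining the same two components, if the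
  function decomposes on each component `v` as `f = c_v · h_v · w_v ^ p`, then
  `π_e ^ a_e · ω₀ₑ · ω₁ₑ' = π_e' ^ a_e' · ω₁ₑ · ω₀ₑ' · β ^ p`
  where `ω_{v,e}` are the leading constants of `h_v` at the nodes and `β` is an explicit element.
* `norm_eta_identity` : its norm shadow, when the `ω`'s have the norms forced by the Gauss norm of
  `h_v` (`‖ω_{v,e}‖ = ‖ω_{v,e'}‖`): `‖π_e‖ ^ a_e = ‖π_e'‖ ^ a_e' · ‖β‖ ^ p`.
-/

set_option autoImplicit false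
set_option linter.unusedSectionVars false

namespace Fermat.Agent.FF4.AmiceLead

open Filter Topology
open Fermat.Agent.FF3.Amice Fermat.Agent.FF3.Birkhoff Fermat.Agent.FF3.AmiceU
open Fermat.Agent.FF3.NodeRing
open scoped Classical

variable {K : Type*} [NormedField K] [IsUltrametricDist K] [CompleteSpace K]

/-- the leading constant of `c · h · w ^ p` -/
theorem HasLead.of_decomp {f h w : BAmice K} {c ω l : K} {ah aw : ℤ} (p : ℕ) (hc : c ≠ 0)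
    (hh : HasLead h ω ah) (hw : HasLead w l aw)
    (hf : f = algebraMap K (BAmice K) c * h * w ^ p) :
    HasLead f (c * ω * l ^ p) (ah + (p : ℤ) * aw) := by
  rw [hf]
  exact (hh.const_mul hc).mul (hw.pow p)

variable {π : K}

/-- **the exact node identity for `p`-fold zeros and poles**: `f · ∏ (X - β j) ^ (p n' j) =
u · ∏ (X - α i) ^ (p m' i)` on both circles. -/
theorem lead_ratio_pth {ϖ : K} (hϖ : IsDiscreteNorm ϖ) (hπ : π ≠ 0) (hπ1 : ‖π‖ < 1) (p : ℕ)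
    {ι κ : Type*} (s : Finset ι) (α : ι → K) (m' : ι → ℕ) (hα : ∀ i ∈ s, ‖π‖ < ‖α i‖)
    (hα1 : ∀ i ∈ s, ‖α i‖ < 1) (t : Finset κ) (β : κ → K) (n' : κ → ℕ)
    (hβ : ∀ j ∈ t, ‖π‖ < ‖β j‖) (hβ1 : ∀ j ∈ t, ‖β j‖ < 1)
    {u : NodeB π} (hu : IsUnit u) {cu : K} {a : ℤ} (hlu : HasLead (toX u) cu a)
    {fX fY : BAmice K}
    (hfX : fX * toX (∏ j ∈ t, lin hπ (β j) ^ (p * n' j))
      = toX (u * ∏ i ∈ s, lin hπ (α i) ^ (p * m' i)))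
    (hfY : fY * toY (∏ j ∈ t, lin hπ (β j) ^ (p * n' j))
      = toY (u * ∏ i ∈ s, lin hπ (α i) ^ (p * m' i)))
    {cX cY : K} {aX aY : ℤ} (hX : HasLead fX cX aX) (hY : HasLead fY cY aY) :
    cY * (∏ j ∈ t, (-β j) ^ n' j) ^ p = cX * π ^ a * (∏ i ∈ s, (-α i) ^ m' i) ^ p
      ∧ aX = a + (p : ℤ) * (∑ i ∈ s, (m' i : ℤ) - ∑ j ∈ t, (n' j : ℤ)) ∧ aY = -a := by
  obtain ⟨h1, h2, h3⟩ := lead_ratio_of_mul_eq hϖ hπ hπ1 s α (fun i => p * m' i) hα hα1 t β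
    (fun j => p * n' j) hβ hβ1 hu hlu hfX hfY hX hY
  refine ⟨?_, ?_, h3⟩
  · have e1 : (∏ j ∈ t, (-β j) ^ n' j) ^ p = ∏ j ∈ t, (-β j) ^ (p * n' j) := by
      rw [← Finset.prod_pow]
      refine Finset.prod_congr rfl fun j _ => ?_
      rw [← pow_mul, mul_comm]
    have e2 : (∏ i ∈ s, (-α i) ^ m' i) ^ p = ∏ i ∈ s, (-α i) ^ (p * m' i) := by
      rw [← Finset.prod_pow]
      refine Finset.prod_congr rfl fun i _ => ?_
      rw [← pow_mul, mul_comm]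
    rw [e1, e2]
    exact h1
  · rw [h2, mul_sub, Finset.mul_sum, Finset.mul_sum]
    push_cast
    ring

/-- **(T5), the assembly identity.**  Two nodes `e`, `e'` between the components `0` (expansions
in `X`) and `1` (expansions in `Y`).  On the component `v` the function is `c_v · h_v · w_v ^ p`;
`ω` are the leading constants of the `h`'s, `l` those of the `w`'s, at the four boundary circles;
`cY · B ^ p = cX · π ^ a · A ^ p` is the exact node identity at each node.  Then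
`π_e ^ a_e · (ω₀ₑ · ω₁ₑ') = π_e' ^ a_e' · (ω₁ₑ · ω₀ₑ') · β ^ p` with `β` explicit. -/
theorem eta_pow_identity (p : ℕ) {π' : K}
    {c0 c1 : K} (hc0 : c0 ≠ 0) (hc1 : c1 ≠ 0)
    {ω0 ω1 ω0' ω1' l0 l1 l0' l1' : K}
    {A B A' B' : K} {a a' : ℤ}
    -- the node identity at `e` and at `e'`, with `cX = c0 ω0 l0^p`, `cY = c1 ω1 l1^p`
    (he : (c1 * ω1 * l1 ^ p) * B ^ p = (c0 * ω0 * l0 ^ p) * π ^ a * A ^ p)
    (he' : (c1 * ω1' * l1' ^ p) * B' ^ p = (c0 * ω0' * l0' ^ p) * π' ^ a' * A' ^ p) :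
    π ^ a * (ω0 * ω1') * (l0 * A * l1' * B') ^ p
      = π' ^ a' * (ω1 * ω0') * (l1 * B * l0' * A') ^ p := by
  -- multiply the two identities crosswise
  have h : (c1 * ω1 * l1 ^ p) * B ^ p * ((c0 * ω0' * l0' ^ p) * π' ^ a' * A' ^ p)
      = (c0 * ω0 * l0 ^ p) * π ^ a * A ^ p * ((c1 * ω1' * l1' ^ p) * B' ^ p) := by
    rw [he, he']
  have hc : c0 * c1 ≠ 0 := mul_ne_zero hc0 hc1
  apply mul_left_cancel₀ hc
  rw [mul_pow, mul_pow, mul_pow, mul_pow, mul_pow, mul_pow]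
  calc c0 * c1 * (π ^ a * (ω0 * ω1') * (l0 ^ p * A ^ p * l1' ^ p * B' ^ p))
      = (c0 * ω0 * l0 ^ p) * π ^ a * A ^ p * ((c1 * ω1' * l1' ^ p) * B' ^ p) := by ring
    _ = (c1 * ω1 * l1 ^ p) * B ^ p * ((c0 * ω0' * l0' ^ p) * π' ^ a' * A' ^ p) := h.symm
    _ = c0 * c1 * (π' ^ a' * (ω1 * ω0') * (l1 ^ p * B ^ p * l0' ^ p * A' ^ p)) := by ring

/-- **(T5), norm shadow**: if moreover `‖ω₀ₑ‖ = ‖ω₀ₑ'‖` and `‖ω₁ₑ‖ = ‖ω₁ₑ'‖` (both are the Gauss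
norm of `h_v` on the component `v`), then `‖π_e‖ ^ a_e = ‖π_e'‖ ^ a_e' · ‖β‖ ^ p` with
`β = (l₁ B l₀' A') / (l₀ A l₁' B')`. -/
theorem norm_eta_identity (p : ℕ) {π' : K}
    {c0 c1 : K} (hc0 : c0 ≠ 0) (hc1 : c1 ≠ 0)
    {ω0 ω1 ω0' ω1' l0 l1 l0' l1' : K} (hω0 : ω0 ≠ 0) (hω1' : ω1' ≠ 0)
    (hl0 : l0 ≠ 0) (hl1' : l1' ≠ 0)
    {A B A' B' : K} (hA : A ≠ 0) (hB' : B' ≠ 0) {a a' : ℤ}
    (he : (c1 * ω1 * l1 ^ p) * B ^ p = (c0 * ω0 * l0 ^ p) * π ^ a * A ^ p)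
    (he' : (c1 * ω1' * l1' ^ p) * B' ^ p = (c0 * ω0' * l0' ^ p) * π' ^ a' * A' ^ p)
    (h0 : ‖ω0‖ = ‖ω0'‖) (h1 : ‖ω1‖ = ‖ω1'‖) :
    ‖π‖ ^ a = ‖π'‖ ^ a' * ‖(l1 * B * l0' * A') / (l0 * A * l1' * B')‖ ^ p := by
  have h := eta_pow_identity (π := π) (π' := π') p hc0 hc1 he he'
  have hω' : ‖ω0‖ * ‖ω1'‖ = ‖ω1‖ * ‖ω0'‖ := by rw [h0, h1, mul_comm]
  have hωpos : 0 < ‖ω0‖ * ‖ω1'‖ := mul_pos (norm_pos_iff.2 hω0) (norm_pos_iff.2 hω1')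
  have hn := congrArg norm h
  simp only [norm_mul, norm_zpow, norm_pow] at hn
  have hDpos : 0 < ‖l0‖ * ‖A‖ * ‖l1'‖ * ‖B'‖ :=
    mul_pos (mul_pos (mul_pos (norm_pos_iff.2 hl0) (norm_pos_iff.2 hA)) (norm_pos_iff.2 hl1'))
      (norm_pos_iff.2 hB')
  simp only [norm_div, norm_mul]
  rw [div_pow, ← mul_div_assoc, eq_div_iff (pow_pos hDpos p).ne']
  apply mul_left_cancel₀ hωpos.ne'
  calc ‖ω0‖ * ‖ω1'‖ * (‖π‖ ^ a * (‖l0‖ * ‖A‖ * ‖l1'‖ * ‖B'‖) ^ p)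
      = ‖π‖ ^ a * (‖ω0‖ * ‖ω1'‖) * (‖l0‖ * ‖A‖ * ‖l1'‖ * ‖B'‖) ^ p := by ring
    _ = ‖π'‖ ^ a' * (‖ω1‖ * ‖ω0'‖) * (‖l1‖ * ‖B‖ * ‖l0'‖ * ‖A'‖) ^ p := hn
    _ = ‖ω0‖ * ‖ω1'‖ * (‖π'‖ ^ a' * (‖l1‖ * ‖B‖ * ‖l0'‖ * ‖A'‖) ^ p) := by rw [← hω']; ring

end Fermat.Agent.FF4.AmiceLead
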