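import Mathlib
import Fermat.Agent.FF4.AmiceLead.Basic

/-!
# FF4 / AmiceLead : coefficientwise action of an isometric endomorphism of the constants

`σ : K →+* K` with `‖σ x‖ = ‖x‖`.

* `mapCoeff σ hσ : BAmice K →+* BAmice K` : `∑ cₙ Xⁿ ↦ ∑ σ(cₙ) Xⁿ` (`coeff_mapCoeff`), isometric
  (`norm_mapCoeff`), `σ`-semilinear (`mapCoeff_algebraMap`), fixes the coordinate
  (`mapCoeff_X_zpow`);
* `HasLead.map` : **the leading constant is equivariant**:
  `HasLead z c a → HasLead (mapCoeff σ hσ z) (σ c) a`.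
-/

set_option autoImplicit false
set_option linter.unusedSectionVars false

namespace Fermat.Agent.FF4.AmiceLead

open Filter Topology
open Fermat.Agent.FF3.Amice Fermat.Agent.FF3.Birkhoff Fermat.Agent.FF3.AmiceU
open scoped Classical

variable {K : Type*} [NormedField K] [IsUltrametricDist K] [CompleteSpace K]

section

variable (σ : K →+* K) (hσ : ∀ x : K, ‖σ x‖ = ‖x‖)
include hσ

theorem continuous_of_isometric : Continuous σ := by
  have hiso : Isometry σ := by
    refine Isometry.of_dist_eq fun x y => ?_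
    rw [dist_eq_norm, dist_eq_norm, ← map_sub, hσ]
  exact hiso.continuous

/-- the coefficientwise image of a sequence -/
noncomputable def mapCoeffFun (z : BAmice K) : BAmice K :=
  BAmice.mk (fun n => σ (BAmice.coeff n z))
    (by
      obtain ⟨C, hC⟩ := BAmice.bddAbove_norm_coeff z
      refine ⟨C, ?_⟩
      rintro _ ⟨n, rfl⟩
      show ‖σ (BAmice.coeff n z)‖ ≤ C
      rw [hσ]
      exact hC ⟨n, rfl⟩)
    (by
      have h := (continuous_of_isometric σ hσ).tendsto 0
      rw [map_zero] at h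
      exact h.comp (BAmice.tendsto_coeff_atBot z))

theorem coeff_mapCoeffFun (z : BAmice K) (n : ℤ) :
    BAmice.coeff n (mapCoeffFun σ hσ z) = σ (BAmice.coeff n z) := rfl

theorem mapCoeffFun_mul (z w : BAmice K) :
    mapCoeffFun σ hσ (z * w) = mapCoeffFun σ hσ z * mapCoeffFun σ hσ w := by
  apply BAmice.ext; intro n
  rw [coeff_mapCoeffFun, BAmice.coeff_mul, BAmice.coeff_mul]
  have hs := (BAmice.summable_coeff_mul n z w).hasSum
  have h2 := hs.map σ.toAddMonoidHom (continuous_of_isometric σ hσ)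
  have h3 : (σ.toAddMonoidHom ∘ fun i : ℤ => BAmice.coeff i z * BAmice.coeff (n - i) w)
      = fun i : ℤ => BAmice.coeff i (mapCoeffFun σ hσ z)
          * BAmice.coeff (n - i) (mapCoeffFun σ hσ w) := by
    funext i
    show σ (BAmice.coeff i z * BAmice.coeff (n - i) w) = _
    rw [map_mul]; rfl
  rw [h3] at h2
  exact h2.tsum_eq.symm

/-- **the coefficientwise action** of an isometric endomorphism of the constants -/
noncomputable def mapCoeff : BAmice K →+* BAmice K where
  toFun := mapCoeffFun σ hσ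
  map_one' := by
    apply BAmice.ext; intro n
    rw [coeff_mapCoeffFun, BAmice.coeff_one]
    split_ifs
    · exact map_one σ
    · exact map_zero σ
  map_mul' := mapCoeffFun_mul σ hσ
  map_zero' := by
    apply BAmice.ext; intro n
    rw [coeff_mapCoeffFun, BAmice.coeff_zero, map_zero]
  map_add' := fun z w => by
    apply BAmice.ext; intro n
    rw [coeff_mapCoeffFun, BAmice.coeff_add, BAmice.coeff_add, map_add]; rfl

@[simp] theorem coeff_mapCoeff (z : BAmice K) (n : ℤ) :
    BAmice.coeff n (mapCoeff σ hσ z) = σ (BAmice.coeff n z) := rfl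

theorem norm_mapCoeff (z : BAmice K) : ‖mapCoeff σ hσ z‖ = ‖z‖ := by
  apply le_antisymm
  · rw [BAmice.norm_le_iff]
    intro n
    rw [coeff_mapCoeff, hσ]
    exact BAmice.norm_coeff_le n z
  · rw [BAmice.norm_le_iff]
    intro n
    rw [← hσ, ← coeff_mapCoeff σ hσ]
    exact BAmice.norm_coeff_le n _

theorem mapCoeff_algebraMap (c : K) :
    mapCoeff σ hσ (algebraMap K (BAmice K) c) = algebraMap K (BAmice K) (σ c) := by
  apply BAmice.ext; intro n
  rw [coeff_mapCoeff, BAmice.coeff_algebraMap, BAmice.coeff_algebraMap]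
  split_ifs
  · rfl
  · exact map_zero σ

theorem mapCoeff_single (k : ℤ) (x : K) :
    mapCoeff σ hσ (BAmice.single k x) = BAmice.single k (σ x) := by
  apply BAmice.ext; intro n
  rw [coeff_mapCoeff, BAmice.coeff_single, BAmice.coeff_single]
  split_ifs
  · rfl
  · exact map_zero σ

theorem mapCoeff_X_zpow (k : ℤ) :
    mapCoeff σ hσ (((BAmice.X ^ k : (BAmice K)ˣ) : BAmice K))
      = ((BAmice.X ^ k : (BAmice K)ˣ) : BAmice K) := by
  rw [BAmice.coe_X_zpow, mapCoeff_single, map_one]

theorem suppIn_mapCoeff {z : BAmice K} {P : ℤ → Prop} (h : SuppIn z P) :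
    SuppIn (mapCoeff σ hσ z) P := by
  intro n hn
  rw [coeff_mapCoeff, h n hn, map_zero]

theorem isPlus_mapCoeff {b : BAmice K} (hb : IsPlus b) : IsPlus (mapCoeff σ hσ b) :=
  ⟨mem_BP_iff.2 (suppIn_mapCoeff σ hσ (mem_BP_iff.1 hb.1)), by rw [norm_mapCoeff]; exact hb.2⟩

theorem isMinus_mapCoeff {d : BAmice K} (hd : IsMinus d) : IsMinus (mapCoeff σ hσ d) :=
  ⟨mem_BM_iff.2 (suppIn_mapCoeff σ hσ (mem_BM_iff.1 hd.1)), by rw [norm_mapCoeff]; exact hd.2⟩

theorem mapCoeff_nf (c : K) (a : ℤ) (b d : BAmice K) :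
    mapCoeff σ hσ (NF c a b d) = NF (σ c) a (mapCoeff σ hσ b) (mapCoeff σ hσ d) := by
  unfold NF
  rw [map_mul, map_mul, map_mul, mapCoeff_algebraMap, mapCoeff_X_zpow, map_add, map_add, map_one]

/-- **equivariance of the leading constant** -/
theorem HasLead.map {z : BAmice K} {c : K} {a : ℤ} (h : HasLead z c a) :
    HasLead (mapCoeff σ hσ z) (σ c) a := by
  obtain ⟨hc, b, d, hb, hd, rfl⟩ := h
  refine ⟨?_, mapCoeff σ hσ b, mapCoeff σ hσ d, isPlus_mapCoeff σ hσ hb,
    isMinus_mapCoeff σ hσ hd, mapCoeff_nf σ hσ c a b d⟩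
  intro h0
  have := hσ c
  rw [h0, norm_zero] at this
  exact hc (norm_eq_zero.1 this.symm)

end

end Fermat.Agent.FF4.AmiceLead
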