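import Mathlib
import Fermat.Agent.FF4.Descent
import Fermat.Agent.FF4.AmiceLead.Galois
import Fermat.Agent.FF4.AmiceLead.Norm

/-!
# FF4 / AmiceLead : the Amice leading constant is a "leading constant" in the sense of the descent
lemma (bridge `HasLead ⇒ Descent.IsLead`, node (N3) of the K1 blueprint)

* `leadC hϖ z`, `leadOrd hϖ z` : the leading constant and the order of `z : BAmice K` as functions
  (`K` discretely normed; `0 ↦ 0`), with `hasLead_leadC`, `HasLead.leadC_eq`, `leadC_mul`,
  `leadC_algebraMap`, `leadC_mapCoeff` (equivariance), `norm_leadC`;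
* for a field `E` with an expansion `φ : E →+* BAmice K` and constants `ι : K →+* E`
  (`φ ∘ ι = algebraMap`): `leadE hϖ φ ι x = ι (leadC hϖ (φ x))`, and
  **`isLead_leadE`** : `Descent.IsLead ι.fieldRange (leadE hϖ φ ι)` for a finite group `G` acting on
  `E` compatibly with isometric endomorphisms `σ s` of `K` acting coefficientwise on the expansions;
* `root_mem_fieldRange` : `b ^ p ∈ ι.fieldRange → b ∈ ι.fieldRange` (hypothesis `hroot` of
  `Descent.descent`), `smul_mem_fieldRange` (hypothesis `hC`);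
* `norm_leadC_expansion` : `‖leadC hϖ (φ x)‖ = ‖φ x‖`.
-/

set_option autoImplicit false
set_option linter.unusedSectionVars false

namespace Fermat.Agent.FF4.AmiceLead

open Filter Topology
open Fermat.Agent.FF3.Amice Fermat.Agent.FF3.Birkhoff Fermat.Agent.FF3.AmiceU
open Fermat.Agent.FF4.Descent
open scoped Classical

variable {K : Type*} [NormedField K] [IsUltrametricDist K] [CompleteSpace K]

/-! ### the leading constant as a function -/

section Choice

variable {ϖ : K} (hϖ : IsDiscreteNorm ϖ)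

/-- the leading constant of an element of the Amice ring (`0` for `0`) -/
noncomputable def leadC (z : BAmice K) : K :=
  if h : z = 0 then 0 else (exists_hasLead hϖ h).choose

/-- the order of an element of the Amice ring (`0` for `0`) -/
noncomputable def leadOrd (z : BAmice K) : ℤ :=
  if h : z = 0 then 0 else (exists_hasLead hϖ h).choose_spec.choose

theorem hasLead_leadC {z : BAmice K} (hz : z ≠ 0) :
    HasLead z (leadC hϖ z) (leadOrd hϖ z) := by
  unfold leadC leadOrd
  rw [dif_neg hz, dif_neg hz]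
  exact (exists_hasLead hϖ hz).choose_spec.choose_spec

theorem HasLead.leadC_eq {z : BAmice K} {c : K} {a : ℤ} (h : HasLead z c a) :
    leadC hϖ z = c := ((hasLead_leadC hϖ h.ne_zero).unique h).1

theorem HasLead.leadOrd_eq {z : BAmice K} {c : K} {a : ℤ} (h : HasLead z c a) :
    leadOrd hϖ z = a := ((hasLead_leadC hϖ h.ne_zero).unique h).2

@[simp] theorem leadC_zero : leadC hϖ (0 : BAmice K) = 0 := by
  unfold leadC; rw [dif_pos rfl]

theorem leadC_ne_zero {z : BAmice K} (hz : z ≠ 0) : leadC hϖ z ≠ 0 :=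
  (hasLead_leadC hϖ hz).const_ne_zero

theorem leadC_mul (z z' : BAmice K) : leadC hϖ (z * z') = leadC hϖ z * leadC hϖ z' := by
  by_cases hz : z = 0
  · rw [hz, zero_mul, leadC_zero, zero_mul]
  by_cases hz' : z' = 0
  · rw [hz', mul_zero, leadC_zero, mul_zero]
  exact ((hasLead_leadC hϖ hz).mul (hasLead_leadC hϖ hz')).leadC_eq hϖ

theorem leadOrd_mul {z z' : BAmice K} (hz : z ≠ 0) (hz' : z' ≠ 0) :
    leadOrd hϖ (z * z') = leadOrd hϖ z + leadOrd hϖ z' :=
  ((hasLead_leadC hϖ hz).mul (hasLead_leadC hϖ hz')).leadOrd_eq hϖ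

theorem leadC_algebraMap (c : K) : leadC hϖ (algebraMap K (BAmice K) c) = c := by
  by_cases hc : c = 0
  · rw [hc, map_zero, leadC_zero]
  exact (hasLead_algebraMap hc).leadC_eq hϖ

theorem leadC_one : leadC hϖ (1 : BAmice K) = 1 := hasLead_one.leadC_eq hϖ

/-- **equivariance** of the leading constant -/
theorem leadC_mapCoeff (σ : K →+* K) (hσ : ∀ x : K, ‖σ x‖ = ‖x‖) (z : BAmice K) :
    leadC hϖ (mapCoeff σ hσ z) = σ (leadC hϖ z) := by
  by_cases hz : z = 0
  · rw [hz, map_zero, leadC_zero, map_zero]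
  exact ((hasLead_leadC hϖ hz).map σ hσ).leadC_eq hϖ

theorem leadOrd_mapCoeff (σ : K →+* K) (hσ : ∀ x : K, ‖σ x‖ = ‖x‖) {z : BAmice K} (hz : z ≠ 0) :
    leadOrd hϖ (mapCoeff σ hσ z) = leadOrd hϖ z :=
  ((hasLead_leadC hϖ hz).map σ hσ).leadOrd_eq hϖ

/-- the norm of the leading constant is the Gauss norm -/
theorem norm_leadC (z : BAmice K) : ‖leadC hϖ z‖ = ‖z‖ := by
  by_cases hz : z = 0
  · rw [hz, leadC_zero, norm_zero, norm_zero]
  exact (hasLead_leadC hϖ hz).norm_eq.symm

end Choice

/-! ### the bridge to the descent lemma -/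

section Field

variable {ϖ : K} (hϖ : IsDiscreteNorm ϖ)
variable {E : Type*} [Field E] (φ : E →+* BAmice K) (ι : K →+* E)

/-- the leading constant of an element of `E`, read on the expansion `φ` and put back into `E` -/
noncomputable def leadE (x : E) : E := ι (leadC hϖ (φ x))

theorem leadE_apply (x : E) : leadE hϖ φ ι x = ι (leadC hϖ (φ x)) := rfl

theorem expansion_ne_zero {x : E} (hx : x ≠ 0) : φ x ≠ 0 := by
  have hnt : Nontrivial (BAmice K) := NormOneClass.nontrivial
  exact (map_ne_zero φ).2 hx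

/-- the norm of the leading constant is the Gauss norm of the expansion -/
theorem norm_leadC_expansion (x : E) : ‖leadC hϖ (φ x)‖ = ‖φ x‖ := norm_leadC hϖ (φ x)

variable (hφι : ∀ c : K, φ (ι c) = algebraMap K (BAmice K) c)
include hφι

theorem leadE_const (c : K) : leadE hϖ φ ι (ι c) = ι c := by
  rw [leadE_apply, hφι, leadC_algebraMap]

include hϖ in
/-- **`hroot`** : an element of `E` whose `p`-th power is a constant is a constant -/
theorem root_mem_fieldRange {p : ℕ} (hp : p ≠ 0) (hpK : (p : K) ≠ 0) (b : E)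
    (hb : b ^ p ∈ ι.fieldRange) : b ∈ ι.fieldRange := by
  by_cases hb0 : b = 0
  · rw [hb0]; exact ι.fieldRange.zero_mem
  obtain ⟨c, hc⟩ := hb
  have hc0 : c ≠ 0 := by
    intro h0
    rw [h0, map_zero] at hc
    exact hb0 (pow_eq_zero_iff hp |>.1 hc.symm)
  have h1 : φ b ^ p = algebraMap K (BAmice K) c := by rw [← map_pow, ← hc, hφι]
  obtain ⟨c', -, hc'⟩ := exists_eq_algebraMap_of_pow_eq hϖ hp hpK hc0 h1
  refine ⟨c', ?_⟩
  have hnt : Nontrivial (BAmice K) := NormOneClass.nontrivial
  apply φ.injective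
  rw [hφι, hc']

variable {G : Type*} [Group G] [Finite G] [MulSemiringAction G E] [FaithfulSMul G E]
  (σ : G → K →+* K) (hσ : ∀ (s : G) (c : K), ‖σ s c‖ = ‖c‖)
  (hι : ∀ (s : G) (c : K), ι (σ s c) = s • ι c)
  (hφ : ∀ (s : G) (x : E), φ (s • x) = mapCoeff (σ s) (hσ s) (φ x))

omit hφι in
/-- **`hC`** : the constants are stable under the group -/
theorem smul_mem_fieldRange (hι : ∀ (s : G) (c : K), ι (σ s c) = s • ι c) (s : G) (c : E)
    (hc : c ∈ ι.fieldRange) : s • c ∈ ι.fieldRange := by
  obtain ⟨k, rfl⟩ := hc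
  exact ⟨σ s k, hι s k⟩

/-- **the Amice leading constant is a leading constant for the descent lemma** -/
theorem isLead_leadE (hι : ∀ (s : G) (c : K), ι (σ s c) = s • ι c)
    (hφ : ∀ (s : G) (x : E), φ (s • x) = mapCoeff (σ s) (hσ s) (φ x)) :
    IsLead (G := G) ι.fieldRange (leadE hϖ φ ι) where
  ne_zero := fun x hx => by
    rw [leadE_apply]
    exact (map_ne_zero ι).2 (leadC_ne_zero hϖ (expansion_ne_zero φ hx))
  mul := fun x y _ _ => by
    rw [leadE_apply, map_mul, leadC_mul, map_mul]; rfl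
  const := fun c hc _ => by
    obtain ⟨k, rfl⟩ := hc
    exact leadE_const hϖ φ ι hφι k
  mem := fun x _ => ⟨_, rfl⟩
  smul := fun s x _ => by
    rw [leadE_apply, hφ, leadC_mapCoeff, hι]; rfl

end Field

end Fermat.Agent.FF4.AmiceLead
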