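import Mathlib
import Fermat.Agent.FF4.AmiceLead.IsLeadInst

/-!
# FF4 / AmiceLead : descent of the unit part (T2 + T3 of the K1 blueprint, abstract package)

`E` a field (a completed component field), `G` a finite group acting faithfully on `E` (inertia),
`ι : K →+* E` the completed constants, `φ₁ φ₂ : E →+* BAmice K` the expansions at two nodes of the
component, both compatible with `ι` and `G`-equivariant (`G` acts coefficientwise through isometric
`σ s : K →+* K`), with the same Gauss norm (`‖φ₁ x‖ = ‖φ₂ x‖`: both are the component valuation).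

* `exists_descent_unit` : if `s • f ∈ C · (E^×)^p · f` for all `s : G` (`C = ι.fieldRange`), there is
  `μ ≠ 0`, fixed by every `s` fixing `f`, such that with `h = f / μ ^ p` the ratio
  `ω = Λ₁(h) / Λ₂(h)` of the leading constants at the two nodes is FIXED by all `σ s` and has NORM
  ONE ("the unit part of the period is a unit of the inertia field").
-/

set_option autoImplicit false
set_option linter.unusedSectionVars false

namespace Fermat.Agent.FF4.AmiceLead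

open Filter Topology
open Fermat.Agent.FF3.Amice Fermat.Agent.FF3.Birkhoff Fermat.Agent.FF3.AmiceU
open Fermat.Agent.FF4.Descent
open scoped Classical

variable {K : Type*} [NormedField K] [IsUltrametricDist K] [CompleteSpace K]

/-- **descent of the unit part** -/
theorem exists_descent_unit {ϖ : K} (hϖ : IsDiscreteNorm ϖ) {p : ℕ} (hp : p ≠ 0)
    (hpK : (p : K) ≠ 0) {E : Type*} [Field E] (φ₁ φ₂ : E →+* BAmice K) (ι : K →+* E)
    (hφι₁ : ∀ c : K, φ₁ (ι c) = algebraMap K (BAmice K) c)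
    (hφι₂ : ∀ c : K, φ₂ (ι c) = algebraMap K (BAmice K) c)
    {G : Type*} [Group G] [Finite G] [MulSemiringAction G E] [FaithfulSMul G E]
    (σ : G → K →+* K) (hσ : ∀ (s : G) (c : K), ‖σ s c‖ = ‖c‖)
    (hι : ∀ (s : G) (c : K), ι (σ s c) = s • ι c)
    (hφ₁ : ∀ (s : G) (x : E), φ₁ (s • x) = mapCoeff (σ s) (hσ s) (φ₁ x))
    (hφ₂ : ∀ (s : G) (x : E), φ₂ (s • x) = mapCoeff (σ s) (hσ s) (φ₂ x))
    (hnorm : ∀ x : E, ‖φ₁ x‖ = ‖φ₂ x‖)
    {f : E} (hf : f ≠ 0)
    (h : ∀ s : G, ∃ a ∈ ι.fieldRange, ∃ m : E, s • f = a * m ^ p * f) :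
    ∃ μ : E, μ ≠ 0 ∧ (∀ s : G, s • f = f → s • μ = μ) ∧
      (∀ s : G, σ s (leadC hϖ (φ₁ (f / μ ^ p)) / leadC hϖ (φ₂ (f / μ ^ p)))
        = leadC hϖ (φ₁ (f / μ ^ p)) / leadC hϖ (φ₂ (f / μ ^ p))) ∧
      ‖leadC hϖ (φ₁ (f / μ ^ p)) / leadC hϖ (φ₂ (f / μ ^ p))‖ = 1 := by
  have hL₁ := isLead_leadE (G := G) hϖ φ₁ ι hφι₁ σ hσ hι hφ₁
  have hL₂ := isLead_leadE (G := G) hϖ φ₂ ι hφι₂ σ hσ hι hφ₂
  obtain ⟨μ, hμ0, hinv, hfix⟩ := descent (G := G) hp ι.fieldRange
    (smul_mem_fieldRange ι σ hι) (root_mem_fieldRange hϖ φ₁ ι hφι₁ hp hpK) hL₁ hf h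
  have hh0 : f / μ ^ p ≠ 0 := div_ne_zero hf (pow_ne_zero p hμ0)
  refine ⟨μ, hμ0, hfix, fun s => ?_, ?_⟩
  · have hr := ratio_invariant (G := G) ι.fieldRange hL₁ hL₂ hh0 hinv s
    rw [leadE_apply, leadE_apply, ← map_div₀, ← hι] at hr
    exact ι.injective hr
  · have h2 : leadC hϖ (φ₂ (f / μ ^ p)) ≠ 0 := leadC_ne_zero hϖ (expansion_ne_zero φ₂ hh0)
    rw [norm_div, norm_leadC, norm_leadC, hnorm]
    exact div_self (norm_ne_zero_iff.2 (expansion_ne_zero φ₂ hh0))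

end Fermat.Agent.FF4.AmiceLead
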