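import Mathlib
import Fermat.Agent.FF4.AmiceLead.DescentUnit
import Fermat.Agent.FF4.AmiceLead.Assembly

/-!
# FF4 / AmiceLead : the abstract K1 theorem (T2 + T3 + T5 of the K1 blueprint in one statement)

Two components `0`, `1` with completed function fields `E₀`, `E₁`, two nodes `e`, `e'` joining them.
`K` = the completed constants of the level (complete, discretely normed), `G` = the inertia group,
acting faithfully on `E₀`, `E₁` and through isometric `σ s` on `K`.  Expansions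
`φ₀ φ₀' : E₀ →+* BAmice K` (in `X` at `e`, in `X'` at `e'`), `φ₁ φ₁' : E₁ →+* BAmice K`
(in `Y = π / X`, `Y' = π' / X'`), compatible with the constants, `G`-equivariant (coefficientwise),
and the two expansions of one component have the same Gauss norm.

`f₀ : E₀`, `f₁ : E₁` the images of one global function.  HYPOTHESES
* (T1) `s • f_v ∈ K · (E_v^×)^p · f_v` for all `s : G`, `v = 0, 1`;
* (T4) the exact node identities `Λ₁ₑ(f) = Λ₀ₑ(f) · π ^ a · A ^ p` and the same at `e'`.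

CONCLUSION (`k1_abstract`): `π ^ a = π' ^ a' · υ · β ^ p` with `υ` a `G`-FIXED element of NORM ONE
and `β ∈ K^×`; moreover `β` is fixed by every `s` fixing `f₀`, `f₁`, `A`, `A'`
(`β ∈ K(V)` in the blueprint).
-/

set_option autoImplicit false
set_option linter.unusedSectionVars false

namespace Fermat.Agent.FF4.AmiceLead

open Filter Topology
open Fermat.Agent.FF3.Amice Fermat.Agent.FF3.Birkhoff Fermat.Agent.FF3.AmiceU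
open Fermat.Agent.FF4.Descent
open scoped Classical

variable {K : Type*} [NormedField K] [IsUltrametricDist K] [CompleteSpace K]

/-- the leading constant of a fixed element is fixed -/
theorem leadC_expansion_fixed {ϖ : K} (hϖ : IsDiscreteNorm ϖ) {E : Type*} [Field E]
    (φ : E →+* BAmice K) {G : Type*} [Group G] [MulSemiringAction G E]
    (σ : G → K →+* K) (hσ : ∀ (s : G) (c : K), ‖σ s c‖ = ‖c‖)
    (hφ : ∀ (s : G) (x : E), φ (s • x) = mapCoeff (σ s) (hσ s) (φ x))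
    {s : G} {x : E} (hx : s • x = x) : σ s (leadC hϖ (φ x)) = leadC hϖ (φ x) := by
  rw [← leadC_mapCoeff hϖ (σ s) (hσ s), ← hφ, hx]

theorem leadC_pow {ϖ : K} (hϖ : IsDiscreteNorm ϖ) (z : BAmice K) (n : ℕ) :
    leadC hϖ (z ^ n) = leadC hϖ z ^ n := by
  induction n with
  | zero => rw [pow_zero, pow_zero, leadC_one]
  | succ n ih => rw [pow_succ, leadC_mul, ih, pow_succ]

/-- the leading constant of `h · μ ^ p` -/
theorem leadC_expansion_div_mul_pow {ϖ : K} (hϖ : IsDiscreteNorm ϖ) {E : Type*} [Field E]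
    (φ : E →+* BAmice K) {f μ : E} (hμ : μ ≠ 0) (p : ℕ) :
    leadC hϖ (φ f) = leadC hϖ (φ (f / μ ^ p)) * leadC hϖ (φ μ) ^ p := by
  have h1 : f = f / μ ^ p * μ ^ p := by
    rw [div_mul_cancel₀ _ (pow_ne_zero p hμ)]
  conv_lhs => rw [h1]
  rw [map_mul, leadC_mul, map_pow, leadC_pow]

/-- **the abstract K1 theorem** -/
theorem k1_abstract {ϖ : K} (hϖ : IsDiscreteNorm ϖ) {p : ℕ} (hp : p ≠ 0) (hpK : (p : K) ≠ 0)
    {E₀ E₁ : Type*} [Field E₀] [Field E₁]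
    {G : Type*} [Group G] [Finite G]
    [MulSemiringAction G E₀] [FaithfulSMul G E₀] [MulSemiringAction G E₁] [FaithfulSMul G E₁]
    (σ : G → K →+* K) (hσ : ∀ (s : G) (c : K), ‖σ s c‖ = ‖c‖)
    -- the constants
    (ι₀ : K →+* E₀) (ι₁ : K →+* E₁)
    (hι₀ : ∀ (s : G) (c : K), ι₀ (σ s c) = s • ι₀ c)
    (hι₁ : ∀ (s : G) (c : K), ι₁ (σ s c) = s • ι₁ c)
    -- the four boundary expansions
    (φ₀ φ₀' : E₀ →+* BAmice K) (φ₁ φ₁' : E₁ →+* BAmice K)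
    (hc₀ : ∀ c : K, φ₀ (ι₀ c) = algebraMap K (BAmice K) c)
    (hc₀' : ∀ c : K, φ₀' (ι₀ c) = algebraMap K (BAmice K) c)
    (hc₁ : ∀ c : K, φ₁ (ι₁ c) = algebraMap K (BAmice K) c)
    (hc₁' : ∀ c : K, φ₁' (ι₁ c) = algebraMap K (BAmice K) c)
    (he₀ : ∀ (s : G) (x : E₀), φ₀ (s • x) = mapCoeff (σ s) (hσ s) (φ₀ x))
    (he₀' : ∀ (s : G) (x : E₀), φ₀' (s • x) = mapCoeff (σ s) (hσ s) (φ₀' x))
    (he₁ : ∀ (s : G) (x : E₁), φ₁ (s • x) = mapCoeff (σ s) (hσ s) (φ₁ x))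
    (he₁' : ∀ (s : G) (x : E₁), φ₁' (s • x) = mapCoeff (σ s) (hσ s) (φ₁' x))
    (hn₀ : ∀ x : E₀, ‖φ₀ x‖ = ‖φ₀' x‖) (hn₁ : ∀ x : E₁, ‖φ₁ x‖ = ‖φ₁' x‖)
    -- the function, (T1)
    {f₀ : E₀} {f₁ : E₁} (hf₀ : f₀ ≠ 0) (hf₁ : f₁ ≠ 0)
    (h₀ : ∀ s : G, ∃ a ∈ ι₀.fieldRange, ∃ m : E₀, s • f₀ = a * m ^ p * f₀)
    (h₁ : ∀ s : G, ∃ a ∈ ι₁.fieldRange, ∃ m : E₁, s • f₁ = a * m ^ p * f₁)
    -- the node identities, (T4)
    {π π' A A' : K} (hA : A ≠ 0) {a a' : ℤ}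
    (hnode : leadC hϖ (φ₁ f₁) = leadC hϖ (φ₀ f₀) * π ^ a * A ^ p)
    (hnode' : leadC hϖ (φ₁' f₁) = leadC hϖ (φ₀' f₀) * π' ^ a' * A' ^ p) :
    ∃ υ β : K, (∀ s : G, σ s υ = υ) ∧ ‖υ‖ = 1 ∧ π ^ a = π' ^ a' * υ * β ^ p ∧
      (∀ s : G, s • f₀ = f₀ → s • f₁ = f₁ → σ s A = A → σ s A' = A' → σ s β = β) := by
  obtain ⟨μ₀, hμ₀, hfix₀, hinv₀, hnorm₀⟩ := exists_descent_unit (G := G) hϖ hp hpK φ₀ φ₀' ι₀
    hc₀ hc₀' σ hσ hι₀ he₀ he₀' hn₀ hf₀ h₀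
  obtain ⟨μ₁, hμ₁, hfix₁, hinv₁, hnorm₁⟩ := exists_descent_unit (G := G) hϖ hp hpK φ₁ φ₁' ι₁
    hc₁ hc₁' σ hσ hι₁ he₁ he₁' hn₁ hf₁ h₁
  have hh₀ : f₀ / μ₀ ^ p ≠ 0 := div_ne_zero hf₀ (pow_ne_zero p hμ₀)
  have hh₁ : f₁ / μ₁ ^ p ≠ 0 := div_ne_zero hf₁ (pow_ne_zero p hμ₁)
  -- names
  set ω0 := leadC hϖ (φ₀ (f₀ / μ₀ ^ p)) with hω0
  set ω0' := leadC hϖ (φ₀' (f₀ / μ₀ ^ p)) with hω0'
  set ω1 := leadC hϖ (φ₁ (f₁ / μ₁ ^ p)) with hω1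
  set ω1' := leadC hϖ (φ₁' (f₁ / μ₁ ^ p)) with hω1'
  set l0 := leadC hϖ (φ₀ μ₀) with hl0
  set l0' := leadC hϖ (φ₀' μ₀) with hl0'
  set l1 := leadC hϖ (φ₁ μ₁) with hl1
  set l1' := leadC hϖ (φ₁' μ₁) with hl1'
  have hω0n : ω0 ≠ 0 := leadC_ne_zero hϖ (expansion_ne_zero φ₀ hh₀)
  have hω0'n : ω0' ≠ 0 := leadC_ne_zero hϖ (expansion_ne_zero φ₀' hh₀)
  have hω1n : ω1 ≠ 0 := leadC_ne_zero hϖ (expansion_ne_zero φ₁ hh₁)
  have hω1'n : ω1' ≠ 0 := leadC_ne_zero hϖ (expansion_ne_zero φ₁' hh₁)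
  have hl0n : l0 ≠ 0 := leadC_ne_zero hϖ (expansion_ne_zero φ₀ hμ₀)
  have hl0'n : l0' ≠ 0 := leadC_ne_zero hϖ (expansion_ne_zero φ₀' hμ₀)
  have hl1n : l1 ≠ 0 := leadC_ne_zero hϖ (expansion_ne_zero φ₁ hμ₁)
  have hl1'n : l1' ≠ 0 := leadC_ne_zero hϖ (expansion_ne_zero φ₁' hμ₁)
  -- the node identities in terms of the descended data
  rw [leadC_expansion_div_mul_pow hϖ φ₁ hμ₁ p, leadC_expansion_div_mul_pow hϖ φ₀ hμ₀ p] at hnode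
  rw [leadC_expansion_div_mul_pow hϖ φ₁' hμ₁ p, leadC_expansion_div_mul_pow hϖ φ₀' hμ₀ p]
    at hnode'
  have hkey := eta_pow_identity (π := π) (π' := π') p (c0 := 1) (c1 := 1) one_ne_zero one_ne_zero
    (ω0 := ω0) (ω1 := ω1) (ω0' := ω0') (ω1' := ω1') (l0 := l0) (l1 := l1) (l0' := l0')
    (l1' := l1') (A := A) (B := 1) (A' := A') (B' := 1) (a := a) (a' := a')
    (by rw [one_pow, mul_one, one_mul, one_mul]; exact hnode)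
    (by rw [one_pow, mul_one, one_mul, one_mul]; exact hnode')
  -- `υ` and `β`
  simp only [mul_one] at hkey
  refine ⟨(ω1 / ω1') / (ω0 / ω0'), (l1 * l0' * A') / (l0 * A * l1'), fun s => ?_, ?_, ?_,
    fun s hs₀ hs₁ hsA hsA' => ?_⟩
  · rw [map_div₀, hinv₀ s, hinv₁ s]
  · rw [norm_div, hnorm₀, hnorm₁, div_one]
  · have hD : l0 * A * l1' ≠ 0 := mul_ne_zero (mul_ne_zero hl0n hA) hl1'n
    have hωω : ω0 * ω1' ≠ 0 := mul_ne_zero hω0n hω1'n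
    rw [div_pow]
    field_simp
    linear_combination hkey
  · have e0 : σ s l0 = l0 := leadC_expansion_fixed hϖ φ₀ σ hσ he₀ (hfix₀ s hs₀)
    have e0' : σ s l0' = l0' := leadC_expansion_fixed hϖ φ₀' σ hσ he₀' (hfix₀ s hs₀)
    have e1 : σ s l1 = l1 := leadC_expansion_fixed hϖ φ₁ σ hσ he₁ (hfix₁ s hs₁)
    have e1' : σ s l1' = l1' := leadC_expansion_fixed hϖ φ₁' σ hσ he₁' (hfix₁ s hs₁)
    simp only [map_div₀, map_mul, e0, e0', e1, e1', hsA, hsA']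

/-- **the abstract K1 theorem, thickness one**: if the node parameters are `π = q · u`,
`π' = q · u'` with `u`, `u'` `G`-fixed of norm one (`q = p` in the application), then
`q ^ (a - a') · υ = β ^ p` with `υ` a `G`-fixed element of norm one. -/
theorem k1_abstract_thick_one {ϖ : K} (hϖ : IsDiscreteNorm ϖ) {p : ℕ} (hp : p ≠ 0)
    (hpK : (p : K) ≠ 0)
    {E₀ E₁ : Type*} [Field E₀] [Field E₁]
    {G : Type*} [Group G] [Finite G]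
    [MulSemiringAction G E₀] [FaithfulSMul G E₀] [MulSemiringAction G E₁] [FaithfulSMul G E₁]
    (σ : G → K →+* K) (hσ : ∀ (s : G) (c : K), ‖σ s c‖ = ‖c‖)
    (ι₀ : K →+* E₀) (ι₁ : K →+* E₁)
    (hι₀ : ∀ (s : G) (c : K), ι₀ (σ s c) = s • ι₀ c)
    (hι₁ : ∀ (s : G) (c : K), ι₁ (σ s c) = s • ι₁ c)
    (φ₀ φ₀' : E₀ →+* BAmice K) (φ₁ φ₁' : E₁ →+* BAmice K)
    (hc₀ : ∀ c : K, φ₀ (ι₀ c) = algebraMap K (BAmice K) c)
    (hc₀' : ∀ c : K, φ₀' (ι₀ c) = algebraMap K (BAmice K) c)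
    (hc₁ : ∀ c : K, φ₁ (ι₁ c) = algebraMap K (BAmice K) c)
    (hc₁' : ∀ c : K, φ₁' (ι₁ c) = algebraMap K (BAmice K) c)
    (he₀ : ∀ (s : G) (x : E₀), φ₀ (s • x) = mapCoeff (σ s) (hσ s) (φ₀ x))
    (he₀' : ∀ (s : G) (x : E₀), φ₀' (s • x) = mapCoeff (σ s) (hσ s) (φ₀' x))
    (he₁ : ∀ (s : G) (x : E₁), φ₁ (s • x) = mapCoeff (σ s) (hσ s) (φ₁ x))
    (he₁' : ∀ (s : G) (x : E₁), φ₁' (s • x) = mapCoeff (σ s) (hσ s) (φ₁' x))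
    (hn₀ : ∀ x : E₀, ‖φ₀ x‖ = ‖φ₀' x‖) (hn₁ : ∀ x : E₁, ‖φ₁ x‖ = ‖φ₁' x‖)
    {f₀ : E₀} {f₁ : E₁} (hf₀ : f₀ ≠ 0) (hf₁ : f₁ ≠ 0)
    (h₀ : ∀ s : G, ∃ a ∈ ι₀.fieldRange, ∃ m : E₀, s • f₀ = a * m ^ p * f₀)
    (h₁ : ∀ s : G, ∃ a ∈ ι₁.fieldRange, ∃ m : E₁, s • f₁ = a * m ^ p * f₁)
    {q u u' A A' : K} (hq : q ≠ 0) (hu : ‖u‖ = 1) (hu' : ‖u'‖ = 1)
    (hσu : ∀ s : G, σ s u = u) (hσu' : ∀ s : G, σ s u' = u')
    (hA : A ≠ 0) {a a' : ℤ}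
    (hnode : leadC hϖ (φ₁ f₁) = leadC hϖ (φ₀ f₀) * (q * u) ^ a * A ^ p)
    (hnode' : leadC hϖ (φ₁' f₁) = leadC hϖ (φ₀' f₀) * (q * u') ^ a' * A' ^ p) :
    ∃ υ β : K, (∀ s : G, σ s υ = υ) ∧ ‖υ‖ = 1 ∧ q ^ (a - a') * υ = β ^ p ∧
      (∀ s : G, s • f₀ = f₀ → s • f₁ = f₁ → σ s A = A → σ s A' = A' → σ s β = β) := by
  obtain ⟨υ, β, hυ, hυn, hid, hβ⟩ := k1_abstract (G := G) hϖ hp hpK σ hσ ι₀ ι₁ hι₀ hι₁ φ₀ φ₀' φ₁ φ₁'
    hc₀ hc₀' hc₁ hc₁' he₀ he₀' he₁ he₁' hn₀ hn₁ hf₀ hf₁ h₀ h₁ hA hnode hnode'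
  have hu0 : u ≠ 0 := fun h => by rw [h, norm_zero] at hu; exact zero_ne_one hu
  have hu'0 : u' ≠ 0 := fun h => by rw [h, norm_zero] at hu'; exact zero_ne_one hu'
  have hυ0 : υ ≠ 0 := fun h => by rw [h, norm_zero] at hυn; exact zero_ne_one hυn
  refine ⟨u ^ a / (u' ^ a' * υ), β, fun s => ?_, ?_, ?_, hβ⟩
  · rw [map_div₀, map_mul, map_zpow₀, map_zpow₀, hσu, hσu', hυ]
  · rw [norm_div, norm_mul, norm_zpow, norm_zpow, hu, hu', hυn, one_zpow, one_zpow, one_mul,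
      div_one]
  · rw [mul_zpow, mul_zpow] at hid
    rw [zpow_sub₀ hq]
    have h1 : u' ^ a' ≠ 0 := zpow_ne_zero _ hu'0
    have h2 : q ^ a' ≠ 0 := zpow_ne_zero _ hq
    field_simp
    linear_combination hid

end Fermat.Agent.FF4.AmiceLead
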