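import Mathlib
import Fermat.Agent.FF4.AmiceLead.K1Abstract

/-!
# FF4 / AmiceLead : the abstract K1 theorem for a group acting through a FINITE IMAGE

The inertia group `Γ` of the modular tower is profinite; on the completed component field `E_v` of a
Galois-stable level it acts through a finite quotient.  This file restates
`exists_descent_unit` and `k1_abstract` for an arbitrary group `Γ` with actions
`act_v : Γ →* RingAut E_v` of FINITE RANGE (the images on `E₀` and on `E₁` are used separately, no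
comparison of the two kernels is needed) and `σ : Γ → K →+* K` isometric on the completed constants.

* `exists_descent_unit_of_finite_range`
* `k1_gamma`, `k1_gamma_thick_one` : the shape (GEO) of the K1 typing board.
-/

set_option autoImplicit false
set_option linter.unusedSectionVars false

namespace Fermat.Agent.FF4.AmiceLead

open Filter Topology
open Fermat.Agent.FF3.Amice Fermat.Agent.FF3.Birkhoff Fermat.Agent.FF3.AmiceU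
open Fermat.Agent.FF4.Descent
open scoped Classical

variable {K : Type*} [NormedField K] [IsUltrametricDist K] [CompleteSpace K]

/-- **descent of the unit part, finite-range form** -/
theorem exists_descent_unit_of_finite_range {ϖ : K} (hϖ : IsDiscreteNorm ϖ) {p : ℕ} (hp : p ≠ 0)
    (hpK : (p : K) ≠ 0) {E : Type*} [Field E] (φ₁ φ₂ : E →+* BAmice K) (ι : K →+* E)
    (hφι₁ : ∀ c : K, φ₁ (ι c) = algebraMap K (BAmice K) c)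
    (hφι₂ : ∀ c : K, φ₂ (ι c) = algebraMap K (BAmice K) c)
    {Γ : Type*} [Group Γ] (act : Γ →* RingAut E) (hfin : (Set.range act).Finite)
    (σ : Γ → K →+* K) (hσ : ∀ (t : Γ) (c : K), ‖σ t c‖ = ‖c‖)
    (hι : ∀ (t : Γ) (c : K), ι (σ t c) = act t (ι c))
    (hφ₁ : ∀ (t : Γ) (x : E), φ₁ (act t x) = mapCoeff (σ t) (hσ t) (φ₁ x))
    (hφ₂ : ∀ (t : Γ) (x : E), φ₂ (act t x) = mapCoeff (σ t) (hσ t) (φ₂ x))
    (hnorm : ∀ x : E, ‖φ₁ x‖ = ‖φ₂ x‖)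
    {f : E} (hf : f ≠ 0)
    (h : ∀ t : Γ, ∃ a ∈ ι.fieldRange, ∃ m : E, act t f = a * m ^ p * f) :
    ∃ μ : E, μ ≠ 0 ∧ (∀ t : Γ, act t f = f → act t μ = μ) ∧
      (∀ t : Γ, σ t (leadC hϖ (φ₁ (f / μ ^ p)) / leadC hϖ (φ₂ (f / μ ^ p)))
        = leadC hϖ (φ₁ (f / μ ^ p)) / leadC hϖ (φ₂ (f / μ ^ p))) ∧
      ‖leadC hϖ (φ₁ (f / μ ^ p)) / leadC hϖ (φ₂ (f / μ ^ p))‖ = 1 := by
  -- the finite image
  have hFin : Finite act.range := by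
    have h1 : (act.range : Set (RingAut E)) = Set.range act := MonoidHom.coe_range act
    have h2 : (act.range : Set (RingAut E)).Finite := by rw [h1]; exact hfin
    exact h2.to_subtype
  -- a section of `Γ → act.range`
  have hsec : ∀ g : act.range, ∃ t : Γ, act t = (g : RingAut E) := fun g => g.2
  choose sec hsec using hsec
  have hsmul : ∀ (g : act.range) (x : E), g • x = act (sec g) x := fun g x => by
    rw [hsec g]; rfl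
  obtain ⟨μ, hμ0, hfix, hinv, hn⟩ := exists_descent_unit (G := act.range) hϖ hp hpK φ₁ φ₂ ι
    hφι₁ hφι₂ (fun g => σ (sec g)) (fun g => hσ (sec g))
    (fun g c => by rw [hsmul]; exact hι (sec g) c)
    (fun g x => by rw [hsmul]; exact hφ₁ (sec g) x)
    (fun g x => by rw [hsmul]; exact hφ₂ (sec g) x) hnorm hf
    (fun g => by
      obtain ⟨a, ha, m, hm⟩ := h (sec g)
      exact ⟨a, ha, m, by rw [hsmul]; exact hm⟩)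
  refine ⟨μ, hμ0, fun t ht => ?_, fun t => ?_, hn⟩
  · have h1 := hfix ⟨act t, t, rfl⟩ (by rw [hsmul, hsec]; exact ht)
    rw [hsmul, hsec] at h1
    exact h1
  · have h1 := hinv ⟨act t, t, rfl⟩
    -- `σ t` and `σ (sec _)` agree, since `ι` is injective
    have h2 : ∀ c : K, σ t c = σ (sec ⟨act t, t, rfl⟩) c := fun c => by
      apply ι.injective
      rw [hι, hι, hsec]
    rw [h2]
    exact h1

/-- the leading constant of a fixed element is fixed (`RingAut` form) -/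
theorem leadC_expansion_fixed_act {ϖ : K} (hϖ : IsDiscreteNorm ϖ) {E : Type*} [Field E]
    (φ : E →+* BAmice K) {Γ : Type*} [Group Γ] (act : Γ →* RingAut E)
    (σ : Γ → K →+* K) (hσ : ∀ (t : Γ) (c : K), ‖σ t c‖ = ‖c‖)
    (hφ : ∀ (t : Γ) (x : E), φ (act t x) = mapCoeff (σ t) (hσ t) (φ x))
    {t : Γ} {x : E} (hx : act t x = x) : σ t (leadC hϖ (φ x)) = leadC hϖ (φ x) := by
  rw [← leadC_mapCoeff hϖ (σ t) (hσ t), ← hφ, hx]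

/-- **the abstract K1 theorem, finite-range form** -/
theorem k1_gamma {ϖ : K} (hϖ : IsDiscreteNorm ϖ) {p : ℕ} (hp : p ≠ 0) (hpK : (p : K) ≠ 0)
    {E₀ E₁ : Type*} [Field E₀] [Field E₁]
    {Γ : Type*} [Group Γ]
    (act₀ : Γ →* RingAut E₀) (hfin₀ : (Set.range act₀).Finite)
    (act₁ : Γ →* RingAut E₁) (hfin₁ : (Set.range act₁).Finite)
    (σ : Γ → K →+* K) (hσ : ∀ (t : Γ) (c : K), ‖σ t c‖ = ‖c‖)
    -- the constants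
    (ι₀ : K →+* E₀) (ι₁ : K →+* E₁)
    (hι₀ : ∀ (t : Γ) (c : K), ι₀ (σ t c) = act₀ t (ι₀ c))
    (hι₁ : ∀ (t : Γ) (c : K), ι₁ (σ t c) = act₁ t (ι₁ c))
    -- the four boundary expansions
    (φ₀ φ₀' : E₀ →+* BAmice K) (φ₁ φ₁' : E₁ →+* BAmice K)
    (hc₀ : ∀ c : K, φ₀ (ι₀ c) = algebraMap K (BAmice K) c)
    (hc₀' : ∀ c : K, φ₀' (ι₀ c) = algebraMap K (BAmice K) c)
    (hc₁ : ∀ c : K, φ₁ (ι₁ c) = algebraMap K (BAmice K) c)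
    (hc₁' : ∀ c : K, φ₁' (ι₁ c) = algebraMap K (BAmice K) c)
    (he₀ : ∀ (t : Γ) (x : E₀), φ₀ (act₀ t x) = mapCoeff (σ t) (hσ t) (φ₀ x))
    (he₀' : ∀ (t : Γ) (x : E₀), φ₀' (act₀ t x) = mapCoeff (σ t) (hσ t) (φ₀' x))
    (he₁ : ∀ (t : Γ) (x : E₁), φ₁ (act₁ t x) = mapCoeff (σ t) (hσ t) (φ₁ x))
    (he₁' : ∀ (t : Γ) (x : E₁), φ₁' (act₁ t x) = mapCoeff (σ t) (hσ t) (φ₁' x))
    (hn₀ : ∀ x : E₀, ‖φ₀ x‖ = ‖φ₀' x‖) (hn₁ : ∀ x : E₁, ‖φ₁ x‖ = ‖φ₁' x‖)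
    -- the function, (T1)
    {f₀ : E₀} {f₁ : E₁} (hf₀ : f₀ ≠ 0) (hf₁ : f₁ ≠ 0)
    (h₀ : ∀ t : Γ, ∃ a ∈ ι₀.fieldRange, ∃ m : E₀, act₀ t f₀ = a * m ^ p * f₀)
    (h₁ : ∀ t : Γ, ∃ a ∈ ι₁.fieldRange, ∃ m : E₁, act₁ t f₁ = a * m ^ p * f₁)
    -- the node identities, (T4)
    {π π' A A' : K} (hA : A ≠ 0) {a a' : ℤ}
    (hnode : leadC hϖ (φ₁ f₁) = leadC hϖ (φ₀ f₀) * π ^ a * A ^ p)
    (hnode' : leadC hϖ (φ₁' f₁) = leadC hϖ (φ₀' f₀) * π' ^ a' * A' ^ p) :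
    ∃ υ β : K, (∀ t : Γ, σ t υ = υ) ∧ ‖υ‖ = 1 ∧ π ^ a = π' ^ a' * υ * β ^ p ∧
      (∀ t : Γ, act₀ t f₀ = f₀ → act₁ t f₁ = f₁ → σ t A = A → σ t A' = A' → σ t β = β) := by
  obtain ⟨μ₀, hμ₀, hfix₀, hinv₀, hnorm₀⟩ := exists_descent_unit_of_finite_range hϖ hp hpK φ₀ φ₀'
    ι₀ hc₀ hc₀' act₀ hfin₀ σ hσ hι₀ he₀ he₀' hn₀ hf₀ h₀
  obtain ⟨μ₁, hμ₁, hfix₁, hinv₁, hnorm₁⟩ := exists_descent_unit_of_finite_range hϖ hp hpK φ₁ φ₁'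
    ι₁ hc₁ hc₁' act₁ hfin₁ σ hσ hι₁ he₁ he₁' hn₁ hf₁ h₁
  have hh₀ : f₀ / μ₀ ^ p ≠ 0 := div_ne_zero hf₀ (pow_ne_zero p hμ₀)
  have hh₁ : f₁ / μ₁ ^ p ≠ 0 := div_ne_zero hf₁ (pow_ne_zero p hμ₁)
  set ω0 := leadC hϖ (φ₀ (f₀ / μ₀ ^ p)) with hω0
  set ω0' := leadC hϖ (φ₀' (f₀ / μ₀ ^ p)) with hω0'
  set ω1 := leadC hϖ (φ₁ (f₁ / μ₁ ^ p)) with hω1
  set ω1' := leadC hϖ (φ₁' (f₁ / μ₁ ^ p)) with hω1'
  set l0 := leadC hϖ (φ₀ μ₀) with hl0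
  set l0' := leadC hϖ (φ₀' μ₀) with hl0'
  set l1 := leadC hϖ (φ₁ μ₁) with hl1
  set l1' := leadC hϖ (φ₁' μ₁) with hl1'
  have hω0n : ω0 ≠ 0 := leadC_ne_zero hϖ (expansion_ne_zero φ₀ hh₀)
  have hω0'n : ω0' ≠ 0 := leadC_ne_zero hϖ (expansion_ne_zero φ₀' hh₀)
  have hω1n : ω1 ≠ 0 := leadC_ne_zero hϖ (expansion_ne_zero φ₁ hh₁)
  have hω1'n : ω1' ≠ 0 := leadC_ne_zero hϖ (expansion_ne_zero φ₁' hh₁)
  have hl0n : l0 ≠ 0 := leadC_ne_zero hϖ (expansion_ne_zero φ₀ hμ₀)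
  have hl0'n : l0' ≠ 0 := leadC_ne_zero hϖ (expansion_ne_zero φ₀' hμ₀)
  have hl1n : l1 ≠ 0 := leadC_ne_zero hϖ (expansion_ne_zero φ₁ hμ₁)
  have hl1'n : l1' ≠ 0 := leadC_ne_zero hϖ (expansion_ne_zero φ₁' hμ₁)
  rw [leadC_expansion_div_mul_pow hϖ φ₁ hμ₁ p, leadC_expansion_div_mul_pow hϖ φ₀ hμ₀ p] at hnode
  rw [leadC_expansion_div_mul_pow hϖ φ₁' hμ₁ p, leadC_expansion_div_mul_pow hϖ φ₀' hμ₀ p]
    at hnode'
  have hkey := eta_pow_identity (π := π) (π' := π') p (c0 := 1) (c1 := 1) one_ne_zero one_ne_zero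
    (ω0 := ω0) (ω1 := ω1) (ω0' := ω0') (ω1' := ω1') (l0 := l0) (l1 := l1) (l0' := l0')
    (l1' := l1') (A := A) (B := 1) (A' := A') (B' := 1) (a := a) (a' := a')
    (by rw [one_pow, mul_one, one_mul, one_mul]; exact hnode)
    (by rw [one_pow, mul_one, one_mul, one_mul]; exact hnode')
  simp only [mul_one] at hkey
  refine ⟨(ω1 / ω1') / (ω0 / ω0'), (l1 * l0' * A') / (l0 * A * l1'), fun t => ?_, ?_, ?_,
    fun t ht₀ ht₁ htA htA' => ?_⟩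
  · rw [map_div₀, hinv₀ t, hinv₁ t]
  · rw [norm_div, hnorm₀, hnorm₁, div_one]
  · have hD : l0 * A * l1' ≠ 0 := mul_ne_zero (mul_ne_zero hl0n hA) hl1'n
    have hωω : ω0 * ω1' ≠ 0 := mul_ne_zero hω0n hω1'n
    rw [div_pow]
    field_simp
    linear_combination hkey
  · have e0 : σ t l0 = l0 := leadC_expansion_fixed_act hϖ φ₀ act₀ σ hσ he₀ (hfix₀ t ht₀)
    have e0' : σ t l0' = l0' := leadC_expansion_fixed_act hϖ φ₀' act₀ σ hσ he₀' (hfix₀ t ht₀)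
    have e1 : σ t l1 = l1 := leadC_expansion_fixed_act hϖ φ₁ act₁ σ hσ he₁ (hfix₁ t ht₁)
    have e1' : σ t l1' = l1' := leadC_expansion_fixed_act hϖ φ₁' act₁ σ hσ he₁' (hfix₁ t ht₁)
    simp only [map_div₀, map_mul, e0, e0', e1, e1', htA, htA']

/-- **the abstract K1 theorem, finite-range form, thickness one**: `π = q · u`, `π' = q · u'` with
`u`, `u'` fixed by `σ` and of norm one: `q ^ (a - a') · υ = β ^ p`. -/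
theorem k1_gamma_thick_one {ϖ : K} (hϖ : IsDiscreteNorm ϖ) {p : ℕ} (hp : p ≠ 0)
    (hpK : (p : K) ≠ 0)
    {E₀ E₁ : Type*} [Field E₀] [Field E₁]
    {Γ : Type*} [Group Γ]
    (act₀ : Γ →* RingAut E₀) (hfin₀ : (Set.range act₀).Finite)
    (act₁ : Γ →* RingAut E₁) (hfin₁ : (Set.range act₁).Finite)
    (σ : Γ → K →+* K) (hσ : ∀ (t : Γ) (c : K), ‖σ t c‖ = ‖c‖)
    (ι₀ : K →+* E₀) (ι₁ : K →+* E₁)
    (hι₀ : ∀ (t : Γ) (c : K), ι₀ (σ t c) = act₀ t (ι₀ c))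
    (hι₁ : ∀ (t : Γ) (c : K), ι₁ (σ t c) = act₁ t (ι₁ c))
    (φ₀ φ₀' : E₀ →+* BAmice K) (φ₁ φ₁' : E₁ →+* BAmice K)
    (hc₀ : ∀ c : K, φ₀ (ι₀ c) = algebraMap K (BAmice K) c)
    (hc₀' : ∀ c : K, φ₀' (ι₀ c) = algebraMap K (BAmice K) c)
    (hc₁ : ∀ c : K, φ₁ (ι₁ c) = algebraMap K (BAmice K) c)
    (hc₁' : ∀ c : K, φ₁' (ι₁ c) = algebraMap K (BAmice K) c)
    (he₀ : ∀ (t : Γ) (x : E₀), φ₀ (act₀ t x) = mapCoeff (σ t) (hσ t) (φ₀ x))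
    (he₀' : ∀ (t : Γ) (x : E₀), φ₀' (act₀ t x) = mapCoeff (σ t) (hσ t) (φ₀' x))
    (he₁ : ∀ (t : Γ) (x : E₁), φ₁ (act₁ t x) = mapCoeff (σ t) (hσ t) (φ₁ x))
    (he₁' : ∀ (t : Γ) (x : E₁), φ₁' (act₁ t x) = mapCoeff (σ t) (hσ t) (φ₁' x))
    (hn₀ : ∀ x : E₀, ‖φ₀ x‖ = ‖φ₀' x‖) (hn₁ : ∀ x : E₁, ‖φ₁ x‖ = ‖φ₁' x‖)
    {f₀ : E₀} {f₁ : E₁} (hf₀ : f₀ ≠ 0) (hf₁ : f₁ ≠ 0)
    (h₀ : ∀ t : Γ, ∃ a ∈ ι₀.fieldRange, ∃ m : E₀, act₀ t f₀ = a * m ^ p * f₀)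
    (h₁ : ∀ t : Γ, ∃ a ∈ ι₁.fieldRange, ∃ m : E₁, act₁ t f₁ = a * m ^ p * f₁)
    {q u u' A A' : K} (hq : q ≠ 0) (hu : ‖u‖ = 1) (hu' : ‖u'‖ = 1)
    (hσu : ∀ t : Γ, σ t u = u) (hσu' : ∀ t : Γ, σ t u' = u')
    (hA : A ≠ 0) {a a' : ℤ}
    (hnode : leadC hϖ (φ₁ f₁) = leadC hϖ (φ₀ f₀) * (q * u) ^ a * A ^ p)
    (hnode' : leadC hϖ (φ₁' f₁) = leadC hϖ (φ₀' f₀) * (q * u') ^ a' * A' ^ p) :
    ∃ υ β : K, (∀ t : Γ, σ t υ = υ) ∧ ‖υ‖ = 1 ∧ q ^ (a - a') * υ = β ^ p ∧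
      (∀ t : Γ, act₀ t f₀ = f₀ → act₁ t f₁ = f₁ → σ t A = A → σ t A' = A' → σ t β = β) := by
  obtain ⟨υ, β, hυ, hυn, hid, hβ⟩ := k1_gamma hϖ hp hpK act₀ hfin₀ act₁ hfin₁ σ hσ ι₀ ι₁ hι₀ hι₁
    φ₀ φ₀' φ₁ φ₁' hc₀ hc₀' hc₁ hc₁' he₀ he₀' he₁ he₁' hn₀ hn₁ hf₀ hf₁ h₀ h₁ hA hnode hnode'
  have hu0 : u ≠ 0 := fun h => by rw [h, norm_zero] at hu; exact zero_ne_one hu
  have hu'0 : u' ≠ 0 := fun h => by rw [h, norm_zero] at hu'; exact zero_ne_one hu'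
  have hυ0 : υ ≠ 0 := fun h => by rw [h, norm_zero] at hυn; exact zero_ne_one hυn
  refine ⟨u ^ a / (u' ^ a' * υ), β, fun t => ?_, ?_, ?_, hβ⟩
  · rw [map_div₀, map_mul, map_zpow₀, map_zpow₀, hσu, hσu', hυ]
  · rw [norm_div, norm_mul, norm_zpow, norm_zpow, hu, hu', hυn, one_zpow, one_zpow, one_mul,
      div_one]
  · rw [mul_zpow, mul_zpow] at hid
    rw [zpow_sub₀ hq]
    have h1 : u' ^ a' ≠ 0 := zpow_ne_zero _ hu'0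
    have h2 : q ^ a' ≠ 0 := zpow_ne_zero _ hq
    field_simp
    linear_combination hid

end Fermat.Agent.FF4.AmiceLead
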