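import Mathlib
import Fermat.Agent.FF4.AmiceLead.Norm

/-!
# FF4 / AmiceLead : the order of the leading constant is the least index where the Gauss norm is
attained, and it is stable under small perturbations

* `norm_add_eq_of_norm_lt` : ultrametric `‖x + y‖ = ‖x‖` for `‖y‖ < ‖x‖`;
* `HasLead.isAttainedAt` : `HasLead z c a → IsAttainedAt z a` (`AmiceU.IsAttainedAt`: `‖coeff a z‖ = ‖z‖`
  and `‖coeff n z‖ < ‖z‖` for `n < a`);
* `HasLead.norm_coeff_sub_lt` : `‖coeff a z - c‖ < ‖c‖` (the `a`-th coefficient is `c` up to smaller);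
* `IsAttainedAt.add_of_norm_lt` : **perturbation**, `IsAttainedAt z a → ‖δ‖ < ‖z‖ → IsAttainedAt (z + δ) a`;
* `IsAttainedAt.exists_hasLead` : `IsAttainedAt z a → z ≠ 0 → ∃ c, HasLead z c a` (no discreteness);
* `HasLead.add_of_norm_lt` : `HasLead z c a → ‖δ‖ < ‖z‖ → ∃ c', HasLead (z + δ) c' a ∧ ‖c' - c‖ < ‖c‖`;
* `IsAttainedAt.order_eq` : `IsAttainedAt z a → HasLead z c a' → a' = a`.
-/

set_option autoImplicit false
set_option linter.unusedSectionVars false

namespace Fermat.Agent.FF4.AmiceLead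

open Filter Topology
open Fermat.Agent.FF3.Amice Fermat.Agent.FF3.Birkhoff Fermat.Agent.FF3.AmiceU
open scoped Classical

/-- the ultrametric "isosceles" rule -/
theorem norm_add_eq_of_norm_lt {E : Type*} [SeminormedAddCommGroup E] [IsUltrametricDist E]
    {x y : E} (h : ‖y‖ < ‖x‖) : ‖x + y‖ = ‖x‖ := by
  refine le_antisymm ((IsUltrametricDist.norm_add_le_max x y).trans (max_le le_rfl h.le)) ?_
  by_contra hlt
  rw [not_le] at hlt
  have h1 : ‖x‖ ≤ max ‖x + y‖ ‖-y‖ := by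
    have := IsUltrametricDist.norm_add_le_max (x + y) (-y)
    rwa [add_neg_cancel_right] at this
  rw [norm_neg] at h1
  exact absurd h1 (not_le.2 (max_lt hlt h))

variable {K : Type*} [NormedField K] [IsUltrametricDist K] [CompleteSpace K]

/-- the unit part `(1 + b) (1 + d)` of a normal form: its norm is attained exactly at `0` -/
theorem isAttainedAt_unitPart {b d : BAmice K} (hb : IsPlus b) (hd : IsMinus d) :
    ‖(1 + b) * (1 + d)‖ = 1 ∧ ‖BAmice.coeff 0 ((1 + b) * (1 + d)) - 1‖ < 1 ∧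
      ∀ n < 0, ‖BAmice.coeff n ((1 + b) * (1 + d))‖ < 1 := by
  have h1b : ‖1 + b‖ ≤ 1 :=
    (IsUltrametricDist.norm_add_le_max 1 b).trans (max_le norm_one.le hb.2)
  have h1d : ‖1 + d‖ ≤ 1 :=
    (IsUltrametricDist.norm_add_le_max 1 d).trans (max_le norm_one.le hd.2.le)
  have hle : ‖(1 + b) * (1 + d)‖ ≤ 1 :=
    (norm_mul_le _ _).trans (mul_le_one₀ h1b (norm_nonneg _) h1d)
  -- `(1 + b) (1 + d) = (1 + b) + (1 + b) d`, the second term is small
  have hsplit : (1 + b) * (1 + d) = (1 + b) + (1 + b) * d := by ring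
  have hsmall : ‖(1 + b) * d‖ < 1 :=
    ((norm_mul_le _ _).trans (mul_le_of_le_one_left (norm_nonneg _) h1b)).trans_lt hd.2
  have hcs : ∀ n, ‖BAmice.coeff n ((1 + b) * d)‖ < 1 := fun n =>
    (BAmice.norm_coeff_le n _).trans_lt hsmall
  have h0 : ‖BAmice.coeff 0 ((1 + b) * (1 + d)) - 1‖ < 1 := by
    rw [hsplit, map_add, coeff_one_add_of_mem_BP hb.1, if_pos rfl, add_sub_cancel_left]
    exact hcs 0
  have hneg : ∀ n < 0, ‖BAmice.coeff n ((1 + b) * (1 + d))‖ < 1 := by
    intro n hn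
    rw [hsplit, map_add, coeff_one_add_of_mem_BP hb.1, if_neg hn.ne, if_neg (not_lt.2 hn.le),
      zero_add]
    exact hcs n
  refine ⟨le_antisymm hle ?_, h0, hneg⟩
  have h2 : ‖BAmice.coeff 0 ((1 + b) * (1 + d))‖ = 1 := by
    have h3 : BAmice.coeff 0 ((1 + b) * (1 + d))
        = 1 + (BAmice.coeff 0 ((1 + b) * (1 + d)) - 1) := by ring
    rw [h3, norm_add_eq_of_norm_lt (by rw [norm_one]; exact h0), norm_one]
  rw [← h2]
  exact BAmice.norm_coeff_le 0 _

/-- the coefficients of a normal form -/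
theorem coeff_nf (c : K) (a : ℤ) (b d : BAmice K) (n : ℤ) :
    BAmice.coeff n (NF c a b d) = c * BAmice.coeff (n - a) ((1 + b) * (1 + d)) := by
  unfold NF
  rw [mul_assoc, mul_assoc, coeff_algebraMap_mul, BAmice.coeff_X_zpow_mul]

/-- **the order of a leading constant is the least index where the norm is attained** -/
theorem HasLead.isAttainedAt {z : BAmice K} {c : K} {a : ℤ} (h : HasLead z c a) :
    IsAttainedAt z a := by
  have hn := h.norm_eq
  obtain ⟨hc, b, d, hb, hd, rfl⟩ := h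
  obtain ⟨h1, h0, hneg⟩ := isAttainedAt_unitPart hb hd
  have hcpos : 0 < ‖c‖ := norm_pos_iff.2 hc
  refine ⟨?_, fun n hna => ?_⟩
  · rw [coeff_nf, sub_self, _root_.norm_mul, hn]
    have h3 : BAmice.coeff 0 ((1 + b) * (1 + d))
        = 1 + (BAmice.coeff 0 ((1 + b) * (1 + d)) - 1) := by ring
    rw [h3, norm_add_eq_of_norm_lt (by rw [norm_one]; exact h0), norm_one, mul_one]
  · rw [coeff_nf, _root_.norm_mul, hn]
    have := hneg (n - a) (by omega)
    calc ‖c‖ * ‖BAmice.coeff (n - a) ((1 + b) * (1 + d))‖ < ‖c‖ * 1 :=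
          mul_lt_mul_of_pos_left this hcpos
      _ = ‖c‖ := mul_one _

/-- the `a`-th coefficient is the leading constant up to smaller -/
theorem HasLead.norm_coeff_sub_lt {z : BAmice K} {c : K} {a : ℤ} (h : HasLead z c a) :
    ‖BAmice.coeff a z - c‖ < ‖c‖ := by
  obtain ⟨hc, b, d, hb, hd, rfl⟩ := h
  obtain ⟨-, h0, -⟩ := isAttainedAt_unitPart hb hd
  have hcpos : 0 < ‖c‖ := norm_pos_iff.2 hc
  rw [coeff_nf, sub_self]
  have : c * BAmice.coeff 0 ((1 + b) * (1 + d)) - c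
      = c * (BAmice.coeff 0 ((1 + b) * (1 + d)) - 1) := by ring
  rw [this, _root_.norm_mul]
  calc ‖c‖ * ‖BAmice.coeff 0 ((1 + b) * (1 + d)) - 1‖ < ‖c‖ * 1 :=
        mul_lt_mul_of_pos_left h0 hcpos
    _ = ‖c‖ := mul_one _

/-- **perturbation**: the least index where the norm is attained does not move under a
perturbation of smaller norm -/
theorem IsAttainedAt.add_of_norm_lt {z δ : BAmice K} {a : ℤ} (h : IsAttainedAt z a)
    (hδ : ‖δ‖ < ‖z‖) : IsAttainedAt (z + δ) a := by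
  have hnorm : ‖z + δ‖ = ‖z‖ := norm_add_eq_of_norm_lt hδ
  have hc : ∀ n, ‖BAmice.coeff n δ‖ < ‖z‖ := fun n => (BAmice.norm_coeff_le n δ).trans_lt hδ
  refine ⟨?_, fun n hn => ?_⟩
  · rw [map_add, hnorm, norm_add_eq_of_norm_lt (by rw [h.1]; exact hc a), h.1]
  · rw [map_add, hnorm]
    exact (IsUltrametricDist.norm_add_le_max _ _).trans_lt (max_lt (h.2 n hn) (hc n))

/-- an element whose norm is attained has a leading constant (no discreteness hypothesis) -/
theorem IsAttainedAt.exists_hasLead {z : BAmice K} {a : ℤ} (h : IsAttainedAt z a) (hz : z ≠ 0) :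
    ∃ c : K, HasLead z c a ∧ ‖c‖ = ‖z‖ := by
  obtain ⟨c, hc, hcn, b, d, hb, hd, e⟩ := exists_nf hz h
  exact ⟨c, ⟨hc, b, d, hb, hd, e⟩, hcn⟩

/-- the order of the leading constant is the index where the norm is attained -/
theorem IsAttainedAt.order_eq {z : BAmice K} {a a' : ℤ} {c : K} (h : IsAttainedAt z a)
    (h' : HasLead z c a') : a' = a := by
  obtain ⟨c₁, h₁, -⟩ := IsAttainedAt.exists_hasLead h h'.ne_zero
  exact (h'.unique h₁).2

/-- **perturbation of a leading constant**: same order, leading constant moved by less than its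
norm -/
theorem HasLead.add_of_norm_lt {z δ : BAmice K} {c : K} {a : ℤ} (h : HasLead z c a)
    (hδ : ‖δ‖ < ‖z‖) : ∃ c' : K, HasLead (z + δ) c' a ∧ ‖c' - c‖ < ‖c‖ := by
  have hz : z ≠ 0 := h.ne_zero
  have hnorm : ‖z + δ‖ = ‖z‖ := norm_add_eq_of_norm_lt hδ
  have hne : z + δ ≠ 0 := by
    intro h0
    rw [h0, norm_zero] at hnorm
    exact hz (norm_eq_zero.1 hnorm.symm)
  obtain ⟨c', hc', hc'n⟩ :=
    IsAttainedAt.exists_hasLead (IsAttainedAt.add_of_norm_lt h.isAttainedAt hδ) hne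
  refine ⟨c', hc', ?_⟩
  have h1 := hc'.norm_coeff_sub_lt
  have h2 := h.norm_coeff_sub_lt
  have hcz : ‖c‖ = ‖z‖ := h.norm_eq.symm
  have hc'z : ‖c'‖ = ‖z‖ := by rw [hc'n, hnorm]
  have h3 : c' - c = (BAmice.coeff a z - c) - (BAmice.coeff a (z + δ) - c') + BAmice.coeff a δ := by
    rw [map_add]; ring
  rw [h3]
  refine (IsUltrametricDist.norm_add_le_max _ _).trans_lt (max_lt ?_ ?_)
  · rw [sub_eq_add_neg]
    refine (IsUltrametricDist.norm_add_le_max _ _).trans_lt (max_lt h2 ?_)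
    rw [norm_neg, hcz, ← hc'z]; exact h1
  · rw [hcz]
    exact (BAmice.norm_coeff_le a δ).trans_lt hδ

end Fermat.Agent.FF4.AmiceLead
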